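import Mathlib

/-!
# Block (C) of S52 : `F² - a F + q = 0` on `E(𝔽̄_q)` — common definitions

`E : y² = x³ + A x + B` over an algebraically closed field `K`.
We work in the group of functions `E(K) → E(K)` and single out those that are given,
at almost all points, by `(x, y) ↦ (r(x), s(x) y)` with `r s : RatFunc K`.
-/

set_option autoImplicit false

namespace Fermat.Agent.Lib.Hasse

open Polynomial

variable {K : Type*} [Field K]

/-- the short Weierstrass curve `y² = x³ + A x + B`. -/
def sw (A B : K) : WeierstrassCurve.Affine K := ⟨0, 0, 0, A, B⟩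

/-- the points of `y² = x³ + A x + B`. -/
abbrev Pt (A B : K) : Type _ := (sw A B).Point

/-- the cubic `x³ + A x + B`. -/
noncomputable def cubic (A B : K) : K[X] := X ^ 3 + C A * X + C B

/-- the cubic `x³ + A x + B` as a rational function. -/
noncomputable def cubicR (A B : K) : RatFunc K := algebraMap K[X] (RatFunc K) (cubic A B)

/-- evaluation of a rational function at a point of `K` (junk value at poles). -/
noncomputable def ev (c : K) (r : RatFunc K) : K := RatFunc.eval (RingHom.id K) c r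

/-- `r` has no pole at `c`. -/
def RegAt (c : K) (r : RatFunc K) : Prop := r.denom.eval c ≠ 0

/-- degree of a rational function (as a map `ℙ¹ → ℙ¹`). -/
noncomputable def rdeg (r : RatFunc K) : ℕ := max r.num.natDegree r.denom.natDegree

/-! ### primitive vectors of polynomials -/

/-- maximum of the degrees of the entries. -/
noncomputable def maxDeg {n : ℕ} (v : Fin n → K[X]) : ℕ := Finset.univ.sup fun i => (v i).natDegree

/-- the entries have no common non-unit factor. -/
def IsPrim {n : ℕ} (v : Fin n → K[X]) : Prop := ∀ p : K[X], (∀ i, p ∣ v i) → IsUnit p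

/-- projective proportionality. -/
def Prop' {R : Type*} [CommRing R] {n : ℕ} (v w : Fin n → R) : Prop := ∀ i j, v i * w j = v j * w i

/-- `(a₀:a₁),(b₀:b₁) ↦ (a₀b₀ : a₀b₁+a₁b₀ : a₁b₁)`. -/
def sym2 {R : Type*} [CommRing R] (a b : Fin 2 → R) : Fin 3 → R :=
  ![a 0 * b 0, a 0 * b 1 + a 1 * b 0, a 1 * b 1]

/-- the add-and-subtract map of `y² = x³+Ax+B` on `(s:t:u) = (x₁x₂ : x₁+x₂ : 1)`. -/
def phi {R : Type*} [CommRing R] (A B : R) (v : Fin 3 → R) : Fin 3 → R :=
  ![v 0 ^ 2 - 2 * A * v 0 * v 2 - 4 * B * v 1 * v 2 + A ^ 2 * v 2 ^ 2,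
    2 * v 1 * v 0 + 2 * A * v 1 * v 2 + 4 * B * v 2 ^ 2,
    v 1 ^ 2 - 4 * v 0 * v 2]

/-- number of `c` with `c^Q = c` and `f(c)^((Q-1)/2) = e`, `f = x³+Ax+B`. -/
noncomputable def cnt (A B : K) (Q : ℕ) (e : K) : ℕ :=
  Nat.card {c : K // c ^ Q = c ∧ (c ^ 3 + A * c + B) ^ ((Q - 1) / 2) = e}

/-! ### germs of rational maps -/

section Germ

variable [DecidableEq K] (A B : K)

/-- `h (x,y) = (r(x), s(x) y)` for almost all `x`. -/
def IsRat (h : Pt A B → Pt A B) (r s : RatFunc K) : Prop :=
  ∀ᶠ c in Filter.cofinite, ∀ (y : K) (hy : (sw A B).Nonsingular c y),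
    ∃ hy', h (.some c y hy) = .some (ev c r) (ev c s * y) hy'

/-- `h (x,y) = 0` for almost all `x`. -/
def IsZ (h : Pt A B → Pt A B) : Prop :=
  ∀ᶠ c in Filter.cofinite, ∀ (y : K) (hy : (sw A B).Nonsingular c y), h (.some c y hy) = 0

/-- the functions that are (almost everywhere) odd rational maps. -/
def IsGerm (h : Pt A B → Pt A B) : Prop :=
  IsZ A B h ∨ ∃ r s, IsRat A B h r s

open Classical in
/-- the degree of a germ (`0` for the zero germ and for junk). -/
noncomputable def gdeg (h : Pt A B → Pt A B) : ℕ :=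
  if hh : ∃ r s, IsRat A B h r s then rdeg hh.choose else 0

end Germ

end Fermat.Agent.Lib.Hasse
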