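import Mathlib
import Fermat.Agent.Lib.Hasse.Defs

set_option autoImplicit false

namespace Fermat.Agent.Lib.Hasse

open Polynomial WeierstrassCurve WeierstrassCurve.Affine

variable {K : Type*} [Field K]

theorem addSub_sym2_comm {R : Type*} [CommRing R] (a b : Fin 2 → R) : sym2 a b = sym2 b a := by
  ext i
  fin_cases i <;> simp [sym2] <;> ring

theorem addSub_prop_mk {R : Type*} [CommRing R] {a0 a1 a2 b0 b1 b2 : R}
    (h01 : a0 * b1 = a1 * b0) (h02 : a0 * b2 = a2 * b0) (h12 : a1 * b2 = a2 * b1) :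
    Prop' ![a0, a1, a2] ![b0, b1, b2] := by
  intro i j
  fin_cases i <;> fin_cases j <;>
    first
      | rfl
      | exact h01
      | exact h01.symm
      | exact h02
      | exact h02.symm
      | exact h12
      | exact h12.symm

theorem addSub_sym2_mk {R : Type*} [CommRing R] (a0 a1 b0 b1 : R) :
    sym2 ![a0, a1] ![b0, b1] = ![a0 * b0, a0 * b1 + a1 * b0, a1 * b1] := rfl

theorem addSub_phi_mk {R : Type*} [CommRing R] (A B s t u : R) :
    phi A B ![s, t, u] = ![s ^ 2 - 2 * A * s * u - 4 * B * t * u + A ^ 2 * u ^ 2,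
      2 * t * s + 2 * A * t * u + 4 * B * u ^ 2, t ^ 2 - 4 * s * u] := rfl

variable [DecidableEq K]

theorem addSub_zero_left (A B : K) (Q : Pt A B) :
    Prop' (sym2 (0 + Q).xRep (0 - Q).xRep) (phi A B (sym2 (0 : Pt A B).xRep Q.xRep)) := by
  rw [zero_add, zero_sub, Point.xRep_neg, Point.xRep_zero]
  rcases Q with _ | ⟨x, y, h⟩
  · change Prop' (sym2 (0 : Pt A B).xRep (0 : Pt A B).xRep) (phi A B (sym2 _ (0 : Pt A B).xRep))
    rw [Point.xRep_zero, addSub_sym2_mk, addSub_phi_mk]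
    apply addSub_prop_mk <;> ring
  · rw [Point.xRep_some, addSub_sym2_mk, addSub_sym2_mk, addSub_phi_mk]
    apply addSub_prop_mk <;> ring

theorem addSub_zero_right (A B : K) (P : Pt A B) :
    Prop' (sym2 (P + 0).xRep (P - 0).xRep) (phi A B (sym2 P.xRep (0 : Pt A B).xRep)) := by
  have h := addSub_zero_left A B P
  rw [zero_add, zero_sub, Point.xRep_neg] at h
  rw [add_zero, sub_zero, addSub_sym2_comm P.xRep (0 : Pt A B).xRep]
  exact h

theorem addSub_self (A B : K) (P : Pt A B) :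
    Prop' (sym2 (P + P).xRep (P - P).xRep) (phi A B (sym2 P.xRep P.xRep)) := by
  rcases P with _ | ⟨x, y, h⟩
  · exact addSub_zero_left A B 0
  rw [sub_self, Point.xRep_zero, Point.xRep_some]
  have e := (equation_iff _ _).1 h.1
  simp only [sw] at e
  by_cases hy : y = (sw A B).negY x y
  · rw [Point.add_self_of_Y_eq hy, Point.xRep_zero, addSub_sym2_mk, addSub_sym2_mk, addSub_phi_mk]
    have hy0 : y + y = 0 := by
      simp only [negY, sw] at hy
      linear_combination hy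
    apply addSub_prop_mk
    · linear_combination (-4) * e + 2 * y * hy0
    · ring
    · ring
  · rw [Point.add_self_of_Y_ne hy, Point.xRep_some, addSub_sym2_mk, addSub_sym2_mk, addSub_phi_mk]
    have hy0 : y + y ≠ 0 := by
      intro h0
      apply hy
      simp only [negY, sw]
      linear_combination h0
    have hs : (sw A B).slope x x y y = (3 * x ^ 2 + A) / (y + y) := by
      rw [slope_of_Y_ne rfl hy]
      simp only [negY, sw]
      congr 1 <;> ring
    rw [hs]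
    simp only [addX, sw]
    have hd2 : (y + y) ^ 2 = 4 * (x ^ 3 + A * x + B) := by linear_combination 4 * e
    generalize y + y = d at hy0 hd2
    have key : ((3 * x ^ 2 + A) / d) ^ 2 * d ^ 2 = (3 * x ^ 2 + A) ^ 2 := by
      field_simp
    apply addSub_prop_mk
    · linear_combination key + (-((3 * x ^ 2 + A) / d) ^ 2) * hd2
    · ring
    · ring

theorem prop_sym2_xRep (A B : K) (P Q : Pt A B) :
    Prop' (sym2 (P + Q).xRep (P - Q).xRep) (phi A B (sym2 P.xRep Q.xRep)) := by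
  rcases P with _ | ⟨x₁, y₁, h₁⟩
  · exact addSub_zero_left A B Q
  rcases Q with _ | ⟨x₂, y₂, h₂⟩
  · exact addSub_zero_right A B _
  by_cases hx : x₁ = x₂
  · rcases (Point.X_eq_iff (h₁ := h₁) (h₂ := h₂)).1 hx with h | h
    · rw [h]
      exact addSub_self A B _
    · have h3 := addSub_self A B (Point.some x₁ y₁ h₁)
      have h4 : Point.some x₂ y₂ h₂ = -Point.some x₁ y₁ h₁ := by rw [h, neg_neg]
      rw [h4, ← sub_eq_add_neg, sub_neg_eq_add, Point.xRep_neg, addSub_sym2_comm]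
      exact h3
  · rw [sub_eq_add_neg (Point.some x₁ y₁ h₁), Point.neg_some, Point.add_of_X_ne hx,
      Point.add_of_X_ne hx, Point.xRep_some, Point.xRep_some, Point.xRep_some, Point.xRep_some,
      addSub_sym2_mk, addSub_sym2_mk, addSub_phi_mk, slope_of_X_ne hx, slope_of_X_ne hx]
    have e₁ := (equation_iff _ _).1 h₁.1
    have e₂ := (equation_iff _ _).1 h₂.1
    simp only [sw] at e₁ e₂
    simp only [addX, negY, sw]
    have hd : x₁ - x₂ ≠ 0 := sub_ne_zero.2 hx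
    have hu : (y₁ - y₂) / (x₁ - x₂) * (x₁ - x₂) = y₁ - y₂ := div_mul_cancel₀ _ hd
    have hw : (y₁ - (-y₂ - 0 * x₂ - 0)) / (x₁ - x₂) * (x₁ - x₂) = y₁ + y₂ := by
      rw [div_mul_cancel₀ _ hd]; ring
    generalize (y₁ - y₂) / (x₁ - x₂) = u at hu
    generalize (y₁ - (-y₂ - 0 * x₂ - 0)) / (x₁ - x₂) = w at hw
    have hu2 : u ^ 2 * (x₁ - x₂) ^ 2 = (y₁ - y₂) ^ 2 := by rw [← hu]; ring
    have hw2 : w ^ 2 * (x₁ - x₂) ^ 2 = (y₁ + y₂) ^ 2 := by rw [← hw]; ring
    have hS : ((u ^ 2 + 0 * u - 0 - x₁ - x₂) + (w ^ 2 + 0 * w - 0 - x₁ - x₂)) * (x₁ - x₂) ^ 2 =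
        2 * (x₁ + x₂) * (x₁ * x₂) + 2 * A * (x₁ + x₂) + 4 * B := by
      linear_combination hu2 + hw2 + 2 * e₁ + 2 * e₂
    have hP : ((u ^ 2 + 0 * u - 0 - x₁ - x₂) * (w ^ 2 + 0 * w - 0 - x₁ - x₂)) * (x₁ - x₂) ^ 2 =
        (x₁ * x₂) ^ 2 - 2 * A * (x₁ * x₂) - 4 * B * (x₁ + x₂) + A ^ 2 := by
      apply mul_right_cancel₀ (pow_ne_zero 2 hd)
      linear_combination (w ^ 2 * (x₁ - x₂) ^ 2 - (x₁ + x₂) * (x₁ - x₂) ^ 2) * hu2 +
        ((y₁ - y₂) ^ 2 - (x₁ + x₂) * (x₁ - x₂) ^ 2) * hw2 +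
        (y₁ ^ 2 + (x₁ ^ 3 + A * x₁ + B) - 2 * y₂ ^ 2 - 2 * (x₁ + x₂) * (x₁ - x₂) ^ 2) * e₁ +
        (y₂ ^ 2 + (x₂ ^ 3 + A * x₂ + B) - 2 * (x₁ ^ 3 + A * x₁ + B)
          - 2 * (x₁ + x₂) * (x₁ - x₂) ^ 2) * e₂
    generalize (u ^ 2 + 0 * u - 0 - x₁ - x₂) = x₃ at hS hP
    generalize (w ^ 2 + 0 * w - 0 - x₁ - x₂) = x₄ at hS hP
    apply addSub_prop_mk
    · linear_combination (x₃ * x₄) * (-hS) + (x₃ + x₄) * hP
    · linear_combination hP
    · linear_combination hS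


end Fermat.Agent.Lib.Hasse
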