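import Mathlib
import Fermat.Agent.Lib.Hasse.Defs

set_option autoImplicit false

namespace Fermat.Agent.Lib.Hasse

open Polynomial

variable {K : Type*} [Field K]

/-! ### helpers -/

theorem primVec_natDegree_le_maxDeg {n : ℕ} (v : Fin n → K[X]) (i : Fin n) :
    (v i).natDegree ≤ maxDeg v :=
  Finset.le_sup (f := fun i => (v i).natDegree) (Finset.mem_univ i)

theorem primVec_maxDeg_le {n : ℕ} {v : Fin n → K[X]} {D : ℕ} (h : ∀ i, (v i).natDegree ≤ D) :
    maxDeg v ≤ D :=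
  Finset.sup_le fun i _ => h i

theorem primVec_ne_zero {n : ℕ} {v : Fin n → K[X]} (hv : IsPrim v) : v ≠ 0 := by
  rintro rfl
  exact not_isUnit_zero (hv 0 fun i => dvd_zero _)

/-- a non-unit has a prime "factor" (also `0`). -/
theorem primVec_exists_prime_dvd {p : K[X]} (hp : ¬ IsUnit p) : ∃ π : K[X], Prime π ∧ π ∣ p := by
  by_cases h0 : p = 0
  · exact ⟨X, prime_X, h0 ▸ dvd_zero _⟩
  · obtain ⟨π, hπ, hd⟩ := WfDvdMonoid.exists_irreducible_factor hp h0
    exact ⟨π, hπ.prime, hd⟩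

/-- criterion for primitivity with primes. -/
theorem primVec_isPrim_of_prime {n : ℕ} {v : Fin n → K[X]}
    (h : ∀ π : K[X], Prime π → ¬ ∀ i, π ∣ v i) : IsPrim v := by
  intro p hp
  by_contra hu
  obtain ⟨π, hπ, hd⟩ := primVec_exists_prime_dvd hu
  exact h π hπ fun i => hd.trans (hp i)

theorem primVec_not_prime_dvd {n : ℕ} {v : Fin n → K[X]} (hv : IsPrim v) {π : K[X]}
    (hπ : Prime π) : ¬ ∀ i, π ∣ v i := fun h => hπ.not_isUnit (hv π h)

/-- the vector of coefficients in top degree is nonzero. -/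
theorem primVec_exists_coeff_ne_zero {n : ℕ} {v : Fin n → K[X]} (hv : v ≠ 0) :
    ∃ i, (v i).coeff (maxDeg v) ≠ 0 := by
  obtain ⟨i₀, hi₀⟩ : ∃ i, v i ≠ 0 := by
    by_contra hcon
    push Not at hcon
    exact hv (funext hcon)
  have : Nonempty (Fin n) := ⟨i₀⟩
  obtain ⟨i, -, hi⟩ := Finset.exists_mem_eq_sup (Finset.univ : Finset (Fin n))
    Finset.univ_nonempty (fun i => (v i).natDegree)
  have hi' : maxDeg v = (v i).natDegree := hi
  by_cases h0 : v i = 0
  · have hD : maxDeg v = 0 := by rw [hi', h0, natDegree_zero]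
    refine ⟨i₀, ?_⟩
    have h1 : (v i₀).natDegree = 0 := by
      have := primVec_natDegree_le_maxDeg v i₀
      omega
    rw [hD, ← h1]
    exact leadingCoeff_ne_zero.mpr hi₀
  · refine ⟨i, ?_⟩
    rw [hi']
    exact leadingCoeff_ne_zero.mpr h0

theorem primVec_le_maxDeg_of_coeff_ne_zero {n : ℕ} {v : Fin n → K[X]} {D : ℕ} {i : Fin n}
    (h : (v i).coeff D ≠ 0) : D ≤ maxDeg v :=
  (le_natDegree_of_ne_zero h).trans (primVec_natDegree_le_maxDeg v i)

theorem primVec_coeff_quad {D E : ℕ} (c : K) {p q : K[X]} (hp : p.natDegree ≤ D)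
    (hq : q.natDegree ≤ E) : (C c * (p * q)).coeff (D + E) = c * (p.coeff D * q.coeff E) := by
  rw [coeff_C_mul, coeff_mul_add_eq_of_natDegree_le hp hq]

theorem primVec_natDegree_quad {D E : ℕ} (c : K) {p q : K[X]} (hp : p.natDegree ≤ D)
    (hq : q.natDegree ≤ E) : (C c * (p * q)).natDegree ≤ D + E :=
  (natDegree_C_mul_le _ _).trans (natDegree_mul_le.trans (add_le_add hp hq))

theorem primVec_cert0 {R : Type*} [CommRing R] (A B : R) (v : Fin 3 → R) :
    ∃ g : Fin 3 → R, g 0 * phi A B v 0 + g 1 * phi A B v 1 + g 2 * phi A B v 2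
      = -(16 * (4 * A ^ 3 + 27 * B ^ 2)) * v 0 ^ 4 := by
  obtain ⟨s, hs⟩ : ∃ s, s = v 0 := ⟨_, rfl⟩
  obtain ⟨t, ht⟩ : ∃ t, t = v 1 := ⟨_, rfl⟩
  obtain ⟨u, hu⟩ : ∃ u, u = v 2 := ⟨_, rfl⟩
  refine ⟨![(-0^2*(-A^2)+9*0*(2*A)*(4*B)-8*(2*A)^3-27*(4*B)^2)*s^2+(2*0*(2*A)*(-A^2)-2*(2*A)^2*(4*B)-10*(4*B)*(-A^2))*s*t+(-0*(4*B)*(-A^2)+(2*A)*(4*B)^2)*s*u+(3*(2*A)^2*(-A^2)-3*(2*A)*(4*B)^2)*t^2+(3*(2*A)*(4*B)*(-A^2)-3*(4*B)^3)*t*u,
    (-0*(2*A)*(-A^2)+(2*A)^2*(4*B)+5*(4*B)*(-A^2))*s^2+(2*0*(4*B)*(-A^2)-2*(2*A)*(4*B)^2-10*(-A^2)^2)*s*t+(-0*(-A^2)^2+(2*A)*(4*B)*(-A^2))*s*u+(3*(2*A)*(4*B)*(-A^2)-3*(4*B)^3)*t^2+(3*(2*A)*(-A^2)^2-3*(4*B)^2*(-A^2))*t*u,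
    (0*(4*B)*(-A^2)-8*(2*A)^2*(-A^2)+7*(2*A)*(4*B)^2)*s^2+(-6*(2*A)*(4*B)*(-A^2)+6*(4*B)^3)*s*t+(-8*(2*A)*(-A^2)^2+8*(4*B)^2*(-A^2))*s*u], ?_⟩
  simp only [phi, Matrix.cons_val_zero, Matrix.cons_val_one, Matrix.cons_val, ← hs, ← ht, ← hu]
  ring

theorem primVec_cert1 {R : Type*} [CommRing R] (A B : R) (v : Fin 3 → R) :
    ∃ g : Fin 3 → R, g 0 * phi A B v 0 + g 1 * phi A B v 1 + g 2 * phi A B v 2
      = -(16 * (4 * A ^ 3 + 27 * B ^ 2)) * v 1 ^ 4 := by
  obtain ⟨s, hs⟩ : ∃ s, s = v 0 := ⟨_, rfl⟩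
  obtain ⟨t, ht⟩ : ∃ t, t = v 1 := ⟨_, rfl⟩
  obtain ⟨u, hu⟩ : ∃ u, u = v 2 := ⟨_, rfl⟩
  refine ⟨![96*(4*B)*s*t+(12*0*(4*B)-64*(-A^2))*t^2+16*(2*A)*(4*B)*t*u,
    -48*(4*B)*s^2+32*(-A^2)*s*t+(-4*0*(-A^2)+16*(2*A)*(4*B))*t^2+16*(2*A)*(-A^2)*t*u,
    -12*0*(4*B)*s^2+(8*0*(-A^2)-32*(2*A)*(4*B))*s*t-12*(4*B)^2*s*u+(-0^2*(-A^2)+9*0*(2*A)*(4*B)-8*(2*A)^3-27*(4*B)^2)*t^2+(4*0*(2*A)*(-A^2)-4*0*(4*B)^2)*t*u], ?_⟩
  simp only [phi, Matrix.cons_val_zero, Matrix.cons_val_one, Matrix.cons_val, ← hs, ← ht, ← hu]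
  ring

theorem primVec_cert2 {R : Type*} [CommRing R] (A B : R) (v : Fin 3 → R) :
    ∃ g : Fin 3 → R, g 0 * phi A B v 0 + g 1 * phi A B v 1 + g 2 * phi A B v 2
      = -(16 * (4 * A ^ 3 + 27 * B ^ 2)) * v 2 ^ 4 := by
  obtain ⟨s, hs⟩ : ∃ s, s = v 0 := ⟨_, rfl⟩
  obtain ⟨t, ht⟩ : ∃ t, t = v 1 := ⟨_, rfl⟩
  obtain ⟨u, hu⟩ : ∃ u, u = v 2 := ⟨_, rfl⟩
  refine ⟨![-12*t^2-4*0*t*u+(0^2-32*(2*A))*u^2,
    6*s*t-0*s*u-5*(2*A)*t*u+(0*(2*A)-27*(4*B))*u^2,
    -8*(2*A)*s*u-12*(4*B)*t*u+((2*A)^2-28*(-A^2))*u^2], ?_⟩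
  simp only [phi, Matrix.cons_val_zero, Matrix.cons_val_one, Matrix.cons_val, ← hs, ← ht, ← hu]
  ring

/-! ### main statements -/

theorem maxDeg_eq_of_prop {n : ℕ} {v w : Fin n → K[X]} (hv : IsPrim v) (hw : IsPrim w)
    (h : Prop' v w) : maxDeg v = maxDeg w := by
  have hspan : Ideal.span (Set.range v) = ⊤ := by
    have hprinc : (Ideal.span (Set.range v)).IsPrincipal := IsPrincipalIdealRing.principal _
    obtain ⟨g, hg⟩ := hprinc
    have hg' : Ideal.span (Set.range v) = Ideal.span {g} := hg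
    have hdvd : ∀ i, g ∣ v i := fun i => by
      have : v i ∈ Ideal.span {g} := hg' ▸ Ideal.subset_span ⟨i, rfl⟩
      exact Ideal.mem_span_singleton.mp this
    rw [hg']
    exact Ideal.span_singleton_eq_top.mpr (hv g hdvd)
  have h1 : (1 : K[X]) ∈ Ideal.span (Set.range v) := hspan ▸ Submodule.mem_top
  obtain ⟨a, ha⟩ := Ideal.mem_span_range_iff_exists_fun.mp h1
  set c : K[X] := ∑ i, a i * w i with hc
  have hcw : ∀ j, w j = c * v j := fun j => by
    calc w j = (∑ i, a i * v i) * w j := by rw [ha, one_mul]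
      _ = ∑ i, a i * (v i * w j) := by rw [Finset.sum_mul]; simp only [mul_assoc]
      _ = ∑ i, a i * (v j * w i) := by simp only [h _ j]
      _ = c * v j := by rw [hc, Finset.sum_mul]; refine Finset.sum_congr rfl fun i _ => by ring
  have hcu : IsUnit c := hw c fun j => ⟨v j, hcw j⟩
  obtain ⟨r, hr, hrc⟩ := Polynomial.isUnit_iff.mp hcu
  have hr0 : r ≠ 0 := hr.ne_zero
  unfold maxDeg
  refine Finset.sup_congr rfl fun j _ => ?_
  rw [hcw j, ← hrc, natDegree_C_mul hr0]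

theorem isPrim_sym2 {a b : Fin 2 → K[X]} (ha : IsPrim a) (hb : IsPrim b) : IsPrim (sym2 a b) := by
  refine primVec_isPrim_of_prime fun π hπ hall => ?_
  have h0 : π ∣ a 0 * b 0 := by simpa [sym2] using hall 0
  have h1 : π ∣ a 0 * b 1 + a 1 * b 0 := by simpa [sym2] using hall 1
  have h2 : π ∣ a 1 * b 1 := by simpa [sym2] using hall 2
  have hA : ¬ (π ∣ a 0 ∧ π ∣ a 1) := fun hh => primVec_not_prime_dvd ha hπ fun i => by
    fin_cases i
    · exact hh.1
    · exact hh.2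
  have hB : ¬ (π ∣ b 0 ∧ π ∣ b 1) := fun hh => primVec_not_prime_dvd hb hπ fun i => by
    fin_cases i
    · exact hh.1
    · exact hh.2
  rcases hπ.dvd_or_dvd h0 with ha0 | hb0
  · have h3 : π ∣ a 1 * b 0 := (dvd_add_right (ha0.mul_right _)).mp h1
    rcases hπ.dvd_or_dvd h3 with ha1 | hb0
    · exact hA ⟨ha0, ha1⟩
    · rcases hπ.dvd_or_dvd h2 with ha1 | hb1
      · exact hA ⟨ha0, ha1⟩
      · exact hB ⟨hb0, hb1⟩
  · have h3 : π ∣ a 0 * b 1 := (dvd_add_left (hb0.mul_left _)).mp h1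
    rcases hπ.dvd_or_dvd h3 with ha0 | hb1
    · rcases hπ.dvd_or_dvd h2 with ha1 | hb1
      · exact hA ⟨ha0, ha1⟩
      · exact hB ⟨hb0, hb1⟩
    · exact hB ⟨hb0, hb1⟩

theorem maxDeg_sym2 {a b : Fin 2 → K[X]} (ha : a ≠ 0) (hb : b ≠ 0) :
    maxDeg (sym2 a b) = maxDeg a + maxDeg b := by
  set m := maxDeg a with hm
  set n := maxDeg b with hn
  have hA : ∀ i, (a i).natDegree ≤ m := primVec_natDegree_le_maxDeg a
  have hB : ∀ i, (b i).natDegree ≤ n := primVec_natDegree_le_maxDeg b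
  apply le_antisymm
  · refine primVec_maxDeg_le fun i => ?_
    fin_cases i
    · exact natDegree_mul_le.trans (add_le_add (hA 0) (hB 0))
    · exact (natDegree_add_le _ _).trans (max_le
        (natDegree_mul_le.trans (add_le_add (hA 0) (hB 1)))
        (natDegree_mul_le.trans (add_le_add (hA 1) (hB 0))))
    · exact natDegree_mul_le.trans (add_le_add (hA 1) (hB 1))
  · obtain ⟨i, hi⟩ := primVec_exists_coeff_ne_zero ha
    obtain ⟨j, hj⟩ := primVec_exists_coeff_ne_zero hb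
    rw [← hm] at hi
    rw [← hn] at hj
    have c0 : (sym2 a b 0).coeff (m + n) = (a 0).coeff m * (b 0).coeff n := by
      simp only [sym2, Matrix.cons_val_zero]
      exact coeff_mul_add_eq_of_natDegree_le (hA 0) (hB 0)
    have c1 : (sym2 a b 1).coeff (m + n)
        = (a 0).coeff m * (b 1).coeff n + (a 1).coeff m * (b 0).coeff n := by
      simp only [sym2, Matrix.cons_val_one, Matrix.cons_val_zero]
      rw [coeff_add, coeff_mul_add_eq_of_natDegree_le (hA 0) (hB 1),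
        coeff_mul_add_eq_of_natDegree_le (hA 1) (hB 0)]
    have c2 : (sym2 a b 2).coeff (m + n) = (a 1).coeff m * (b 1).coeff n := by
      simp only [sym2, Matrix.cons_val]
      exact coeff_mul_add_eq_of_natDegree_le (hA 1) (hB 1)
    by_contra hlt
    have hz : ∀ l, (sym2 a b l).coeff (m + n) = 0 := fun l => by
      by_contra hne
      exact hlt (primVec_le_maxDeg_of_coeff_ne_zero hne)
    have z0 := (hz 0).symm.trans c0
    have z1 := (hz 1).symm.trans c1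
    have z2 := (hz 2).symm.trans c2
    have hα : (a 0).coeff m ≠ 0 ∨ (a 1).coeff m ≠ 0 := by
      fin_cases i
      · exact Or.inl hi
      · exact Or.inr hi
    have hβ : (b 0).coeff n ≠ 0 ∨ (b 1).coeff n ≠ 0 := by
      fin_cases j
      · exact Or.inl hj
      · exact Or.inr hj
    generalize (a 0).coeff m = α₀ at *
    generalize (a 1).coeff m = α₁ at *
    generalize (b 0).coeff n = β₀ at *
    generalize (b 1).coeff n = β₁ at *
    rcases mul_eq_zero.mp z0.symm with h | h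
    · subst h
      have hα₁ : α₁ ≠ 0 := by simpa using hα
      have hβ₁ : β₁ = 0 := (mul_eq_zero.mp z2.symm).resolve_left hα₁
      have hβ₀ : β₀ = 0 := by
        rw [zero_mul, zero_add] at z1
        exact (mul_eq_zero.mp z1.symm).resolve_left hα₁
      simp [hβ₀, hβ₁] at hβ
    · subst h
      have hβ₁ : β₁ ≠ 0 := by simpa using hβ
      have hα₁ : α₁ = 0 := (mul_eq_zero.mp z2.symm).resolve_right hβ₁
      have hα₀ : α₀ = 0 := by
        rw [mul_zero, add_zero] at z1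
        exact (mul_eq_zero.mp z1.symm).resolve_right hβ₁
      simp [hα₀, hα₁] at hα

theorem isPrim_phi {A B : K} (hΔ : 16 * (4 * A ^ 3 + 27 * B ^ 2) ≠ 0) {v : Fin 3 → K[X]}
    (hv : IsPrim v) : IsPrim (phi (C A) (C B) v) := by
  refine primVec_isPrim_of_prime fun π hπ hall => ?_
  have hunit : IsUnit (-(16 * (4 * (C A : K[X]) ^ 3 + 27 * (C B : K[X]) ^ 2))) := by
    have : -(16 * (4 * (C A : K[X]) ^ 3 + 27 * (C B : K[X]) ^ 2))
        = C (-(16 * (4 * A ^ 3 + 27 * B ^ 2))) := by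
      simp only [map_neg, map_mul, map_add, map_pow, map_ofNat]
    rw [this]
    exact Polynomial.isUnit_C.mpr (neg_ne_zero.mpr hΔ).isUnit
  have key : ∀ i, (∃ g : Fin 3 → K[X], g 0 * phi (C A) (C B) v 0 + g 1 * phi (C A) (C B) v 1
      + g 2 * phi (C A) (C B) v 2
      = -(16 * (4 * (C A : K[X]) ^ 3 + 27 * (C B : K[X]) ^ 2)) * v i ^ 4) → π ∣ v i := by
    rintro i ⟨g, hg⟩
    have h1 : π ∣ -(16 * (4 * (C A : K[X]) ^ 3 + 27 * (C B : K[X]) ^ 2)) * v i ^ 4 := by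
      rw [← hg]
      exact dvd_add (dvd_add ((hall 0).mul_left _) ((hall 1).mul_left _)) ((hall 2).mul_left _)
    rcases hπ.dvd_or_dvd h1 with h2 | h2
    · exact absurd (isUnit_of_dvd_unit h2 hunit) hπ.not_isUnit
    · exact hπ.dvd_of_dvd_pow h2
  refine primVec_not_prime_dvd hv hπ fun i => ?_
  fin_cases i
  · exact key 0 (primVec_cert0 _ _ _)
  · exact key 1 (primVec_cert1 _ _ _)
  · exact key 2 (primVec_cert2 _ _ _)

theorem primVec_phi_ne_zero {A B : K} (hΔ : 16 * (4 * A ^ 3 + 27 * B ^ 2) ≠ 0) {l : Fin 3 → K}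
    (hl : l ≠ 0) : phi A B l ≠ 0 := by
  intro h0
  apply hl
  have key : ∀ i, (∃ g : Fin 3 → K, g 0 * phi A B l 0 + g 1 * phi A B l 1 + g 2 * phi A B l 2
      = -(16 * (4 * A ^ 3 + 27 * B ^ 2)) * l i ^ 4) → l i = 0 := by
    rintro i ⟨g, hg⟩
    rw [h0] at hg
    simp only [Pi.zero_apply, mul_zero, add_zero] at hg
    rcases mul_eq_zero.mp hg.symm with h | h
    · exact absurd h (neg_ne_zero.mpr hΔ)
    · exact pow_eq_zero_iff (by norm_num) |>.mp h
  funext i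
  fin_cases i
  · exact key 0 (primVec_cert0 _ _ _)
  · exact key 1 (primVec_cert1 _ _ _)
  · exact key 2 (primVec_cert2 _ _ _)

theorem primVec_phi_eq (A B : K) (v : Fin 3 → K[X]) :
    phi (C A) (C B) v = ![C 1 * (v 0 * v 0) - C (2 * A) * (v 0 * v 2) - C (4 * B) * (v 1 * v 2)
        + C (A ^ 2) * (v 2 * v 2),
      C 2 * (v 1 * v 0) + C (2 * A) * (v 1 * v 2) + C (4 * B) * (v 2 * v 2),
      C 1 * (v 1 * v 1) - C 4 * (v 0 * v 2)] := by
  funext i
  fin_cases i <;>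
    simp only [phi, map_mul, map_pow, map_ofNat, map_one, Fin.zero_eta, Fin.mk_one, Fin.reduceFinMk,
      Matrix.cons_val_zero, Matrix.cons_val_one, Matrix.cons_val] <;> ring

theorem maxDeg_phi {A B : K} (hΔ : 16 * (4 * A ^ 3 + 27 * B ^ 2) ≠ 0) (v : Fin 3 → K[X]) :
    maxDeg (phi (C A) (C B) v) = 2 * maxDeg v := by
  set D := maxDeg v with hD
  have hV : ∀ i, (v i).natDegree ≤ D := primVec_natDegree_le_maxDeg v
  rw [two_mul]
  apply le_antisymm
  · refine primVec_maxDeg_le fun i => ?_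
    rw [primVec_phi_eq]
    fin_cases i
    · exact (natDegree_add_le _ _).trans (max_le ((natDegree_sub_le _ _).trans (max_le
        ((natDegree_sub_le _ _).trans (max_le (primVec_natDegree_quad _ (hV 0) (hV 0))
          (primVec_natDegree_quad _ (hV 0) (hV 2)))) (primVec_natDegree_quad _ (hV 1) (hV 2))))
        (primVec_natDegree_quad _ (hV 2) (hV 2)))
    · exact (natDegree_add_le _ _).trans (max_le ((natDegree_add_le _ _).trans (max_le
        (primVec_natDegree_quad _ (hV 1) (hV 0)) (primVec_natDegree_quad _ (hV 1) (hV 2))))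
        (primVec_natDegree_quad _ (hV 2) (hV 2)))
    · exact (natDegree_sub_le _ _).trans (max_le (primVec_natDegree_quad _ (hV 1) (hV 1))
        (primVec_natDegree_quad _ (hV 0) (hV 2)))
  · by_cases hv0 : v = 0
    · have : D = 0 := by rw [hD, hv0]; simp [maxDeg]
      rw [this]; exact Nat.zero_le _
    · obtain ⟨i, hi⟩ := primVec_exists_coeff_ne_zero hv0
      rw [← hD] at hi
      have hl : (fun i => (v i).coeff D) ≠ 0 := fun h => hi (congrFun h i)
      have hne := primVec_phi_ne_zero hΔ hl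
      have hco : ∀ j, (phi (C A) (C B) v j).coeff (D + D) = phi A B (fun i => (v i).coeff D) j := by
        intro j
        rw [primVec_phi_eq]
        fin_cases j
        · simp only [Fin.zero_eta, Matrix.cons_val_zero, coeff_add, coeff_sub,
            primVec_coeff_quad _ (hV 0) (hV 0), primVec_coeff_quad _ (hV 0) (hV 2),
            primVec_coeff_quad _ (hV 1) (hV 2), primVec_coeff_quad _ (hV 2) (hV 2), phi]
          ring
        · simp only [Fin.mk_one, Matrix.cons_val_one, Matrix.cons_val_zero, coeff_add,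
            primVec_coeff_quad _ (hV 1) (hV 0), primVec_coeff_quad _ (hV 1) (hV 2),
            primVec_coeff_quad _ (hV 2) (hV 2), phi]
          ring
        · simp only [Fin.reduceFinMk, Matrix.cons_val, coeff_sub,
            primVec_coeff_quad _ (hV 1) (hV 1), primVec_coeff_quad _ (hV 0) (hV 2), phi]
          ring
      obtain ⟨j, hj⟩ : ∃ j, phi A B (fun i => (v i).coeff D) j ≠ 0 := by
        by_contra hcon
        push Not at hcon
        exact hne (funext hcon)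
      rw [← hco j] at hj
      exact primVec_le_maxDeg_of_coeff_ne_zero hj

/-- the exact parallelogram law, algebraic form -/
theorem parallelogram_alg {A B : K} (hΔ : 16 * (4 * A ^ 3 + 27 * B ^ 2) ≠ 0)
    {a₁ a₂ a₃ a₄ : Fin 2 → K[X]} (h₁ : IsPrim a₁) (h₂ : IsPrim a₂) (h₃ : IsPrim a₃)
    (h₄ : IsPrim a₄) (h : Prop' (sym2 a₃ a₄) (phi (C A) (C B) (sym2 a₁ a₂))) :
    maxDeg a₃ + maxDeg a₄ = 2 * maxDeg a₁ + 2 * maxDeg a₂ := by
  have e1 := maxDeg_eq_of_prop (isPrim_sym2 h₃ h₄) (isPrim_phi hΔ (isPrim_sym2 h₁ h₂)) h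
  rw [maxDeg_sym2 (primVec_ne_zero h₃) (primVec_ne_zero h₄), maxDeg_phi hΔ,
    maxDeg_sym2 (primVec_ne_zero h₁) (primVec_ne_zero h₂)] at e1
  omega

theorem primVec_isPrim_pair {n m : K[X]} (h : IsCoprime n m) : IsPrim ![n, m] := by
  intro p hp
  exact h.isUnit_of_dvd' (by simpa using hp 0) (by simpa using hp 1)

theorem primVec_maxDeg_pair (n m : K[X]) : maxDeg ![n, m] = max n.natDegree m.natDegree := by
  apply le_antisymm
  · refine primVec_maxDeg_le fun i => ?_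
    fin_cases i
    · exact le_max_left _ _
    · exact le_max_right _ _
  · exact max_le (primVec_natDegree_le_maxDeg ![n, m] 0) (primVec_natDegree_le_maxDeg ![n, m] 1)

theorem isPrim_num_denom (r : RatFunc K) : IsPrim ![r.num, r.denom] :=
  primVec_isPrim_pair (RatFunc.isCoprime_num_denom r)

theorem maxDeg_num_denom (r : RatFunc K) : maxDeg ![r.num, r.denom] = rdeg r :=
  primVec_maxDeg_pair _ _

theorem rdeg_div {n m : K[X]} (hm : m ≠ 0) (h : IsCoprime n m) :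
    rdeg (algebraMap K[X] (RatFunc K) n / algebraMap K[X] (RatFunc K) m)
      = max n.natDegree m.natDegree := by
  set r := algebraMap K[X] (RatFunc K) n / algebraMap K[X] (RatFunc K) m with hr
  rw [← maxDeg_num_denom, ← primVec_maxDeg_pair]
  refine maxDeg_eq_of_prop (isPrim_num_denom r) (primVec_isPrim_pair h) ?_
  have hinj := IsFractionRing.injective K[X] (RatFunc K)
  have hm' : algebraMap K[X] (RatFunc K) m ≠ 0 := by
    rwa [Ne, map_eq_zero_iff _ hinj]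
  have hd' : algebraMap K[X] (RatFunc K) r.denom ≠ 0 := by
    rw [Ne, map_eq_zero_iff _ hinj]
    exact RatFunc.denom_ne_zero r
  have key : r.num * m = n * r.denom := by
    apply hinj
    rw [map_mul, map_mul]
    have h1 := RatFunc.num_div_denom r
    rw [hr] at h1 ⊢
    rw [div_eq_div_iff hd' hm'] at h1
    exact h1
  intro i j
  fin_cases i <;> fin_cases j <;> simp <;>
    first | exact key | exact key.symm | (rw [key]; ring)

theorem isPrim_one_zero : IsPrim ![(1 : K[X]), 0] := by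
  intro p hp
  exact isUnit_of_dvd_one (by simpa using hp 0)

theorem maxDeg_one_zero : maxDeg ![(1 : K[X]), 0] = 0 := by
  rw [primVec_maxDeg_pair]
  simp

end Fermat.Agent.Lib.Hasse
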