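import Mathlib
import Fermat.Agent.Lib.Hasse.Defs

set_option autoImplicit false

namespace Fermat.Agent.Lib.Hasse

open Polynomial

variable {K : Type*} [Field K]

theorem eventually_eval_ne_zero {p : K[X]} (hp : p ≠ 0) :
    ∀ᶠ c in Filter.cofinite, p.eval c ≠ 0 := by
  classical
  rw [Filter.eventually_cofinite]
  simp only [not_not]
  exact (p.roots.toFinset.finite_toSet).subset fun c hc => by
    simpa [hp] using hc

theorem eventually_regAt (r : RatFunc K) : ∀ᶠ c in Filter.cofinite, RegAt c r :=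
  eventually_eval_ne_zero r.denom_ne_zero

theorem ev_eq_div (c : K) (r : RatFunc K) : ev c r = r.num.eval c / r.denom.eval c := by
  simp [ev, RatFunc.eval, Polynomial.eval₂_id]

theorem eventually_ev_ne_zero {r : RatFunc K} (hr : r ≠ 0) :
    ∀ᶠ c in Filter.cofinite, ev c r ≠ 0 := by
  filter_upwards [eventually_regAt r, eventually_eval_ne_zero (RatFunc.num_ne_zero hr)]
    with c h1 h2
  rw [ev_eq_div]
  exact div_ne_zero h2 h1

private theorem regAt_iff (c : K) (r : RatFunc K) :
    RegAt c r ↔ Polynomial.eval₂ (RingHom.id K) c r.denom ≠ 0 := by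
  simp [RegAt, Polynomial.eval₂_id]

theorem RegAt.of_dvd {c : K} {r : RatFunc K} {p : K[X]} (h : r.denom ∣ p) (hp : p.eval c ≠ 0) :
    RegAt c r := by
  intro h0
  exact hp (Polynomial.eval_eq_zero_of_dvd_of_eval_eq_zero h h0)

theorem RegAt.add {c : K} {r s : RatFunc K} (hr : RegAt c r) (hs : RegAt c s) : RegAt c (r + s) :=
  RegAt.of_dvd (RatFunc.denom_add_dvd r s) (by rw [eval_mul]; exact mul_ne_zero hr hs)

theorem RegAt.mul {c : K} {r s : RatFunc K} (hr : RegAt c r) (hs : RegAt c s) : RegAt c (r * s) :=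
  RegAt.of_dvd (RatFunc.denom_mul_dvd r s) (by rw [eval_mul]; exact mul_ne_zero hr hs)

theorem denom_neg' (r : RatFunc K) : (-r).denom = r.denom := by
  have h1 : ∀ x : RatFunc K, (-x).denom ∣ x.denom := fun x =>
    (RatFunc.denom_dvd x.denom_ne_zero).2 ⟨-x.num, by
      rw [map_neg, neg_div, RatFunc.num_div_denom]⟩
  have h2 : r.denom ∣ (-r).denom := by simpa using h1 (-r)
  exact Polynomial.eq_of_monic_of_associated (RatFunc.monic_denom _) (RatFunc.monic_denom _)
    (associated_of_dvd_dvd (h1 r) h2)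

theorem num_neg' (r : RatFunc K) : (-r).num = -r.num := by
  have h := RatFunc.num_denom_neg r
  rw [denom_neg'] at h
  exact mul_right_cancel₀ r.denom_ne_zero h

theorem RegAt.neg {c : K} {r : RatFunc K} (hr : RegAt c r) : RegAt c (-r) := by
  unfold RegAt at *
  rwa [denom_neg']

theorem RegAt.sub {c : K} {r s : RatFunc K} (hr : RegAt c r) (hs : RegAt c s) :
    RegAt c (r - s) := by
  rw [sub_eq_add_neg]
  exact hr.add hs.neg

theorem regAt_one (c : K) : RegAt c (1 : RatFunc K) := by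
  simp [RegAt]

theorem RegAt.pow {c : K} {r : RatFunc K} (hr : RegAt c r) (n : ℕ) : RegAt c (r ^ n) := by
  induction n with
  | zero => simpa using regAt_one c
  | succ n ih => rw [pow_succ]; exact ih.mul hr

theorem regAt_algebraMap (c : K) (p : K[X]) : RegAt c (algebraMap K[X] (RatFunc K) p) := by
  simp [RegAt]

theorem ev_add {c : K} {r s : RatFunc K} (hr : RegAt c r) (hs : RegAt c s) :
    ev c (r + s) = ev c r + ev c s :=
  RatFunc.eval_add _ _ ((regAt_iff c r).1 hr) ((regAt_iff c s).1 hs)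

theorem ev_mul {c : K} {r s : RatFunc K} (hr : RegAt c r) (hs : RegAt c s) :
    ev c (r * s) = ev c r * ev c s :=
  RatFunc.eval_mul _ _ ((regAt_iff c r).1 hr) ((regAt_iff c s).1 hs)

theorem ev_neg {c : K} (r : RatFunc K) : ev c (-r) = - ev c r := by
  rw [ev_eq_div, ev_eq_div, denom_neg', num_neg', eval_neg, neg_div]

theorem ev_sub {c : K} {r s : RatFunc K} (hr : RegAt c r) (hs : RegAt c s) :
    ev c (r - s) = ev c r - ev c s := by
  rw [sub_eq_add_neg, ev_add hr hs.neg, ev_neg, sub_eq_add_neg]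

theorem ev_one (c : K) : ev c (1 : RatFunc K) = 1 := by
  simp [ev]

theorem ev_pow {c : K} {r : RatFunc K} (hr : RegAt c r) (n : ℕ) : ev c (r ^ n) = ev c r ^ n := by
  induction n with
  | zero => simp [ev_one]
  | succ n ih => rw [pow_succ, ev_mul (hr.pow n) hr, ih, pow_succ]

theorem ev_algebraMap (c : K) (p : K[X]) : ev c (algebraMap K[X] (RatFunc K) p) = p.eval c := by
  simp [ev, Polynomial.eval₂_id]

theorem RegAt.inv {c : K} {r : RatFunc K} (hr : RegAt c r) (h0 : ev c r ≠ 0) : RegAt c r⁻¹ := by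
  have hnum : r.num.eval c ≠ 0 := by
    intro h
    apply h0
    rw [ev_eq_div, h, zero_div]
  have hr0 : r ≠ 0 := by
    rintro rfl
    simp [ev] at h0
  have key : r⁻¹ = algebraMap K[X] (RatFunc K) r.denom / algebraMap K[X] (RatFunc K) r.num := by
    conv_lhs => rw [← RatFunc.num_div_denom r]
    rw [inv_div]
  refine RegAt.of_dvd (p := r.num) ?_ hnum
  rw [key]
  exact RatFunc.denom_div_dvd _ _

theorem ev_inv {c : K} {r : RatFunc K} (hr : RegAt c r) (h0 : ev c r ≠ 0) :
    ev c r⁻¹ = (ev c r)⁻¹ := by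
  have hr0 : r ≠ 0 := by
    rintro rfl
    simp [ev] at h0
  have h1 : ev c (r * r⁻¹) = ev c r * ev c r⁻¹ := ev_mul hr (hr.inv h0)
  rw [mul_inv_cancel₀ hr0, ev_one] at h1
  exact (eq_inv_of_mul_eq_one_right h1.symm)

theorem RegAt.div {c : K} {r s : RatFunc K} (hr : RegAt c r) (hs : RegAt c s) (h0 : ev c s ≠ 0) :
    RegAt c (r / s) := by
  rw [div_eq_mul_inv]
  exact hr.mul (hs.inv h0)

theorem ev_div {c : K} {r s : RatFunc K} (hr : RegAt c r) (hs : RegAt c s) (h0 : ev c s ≠ 0) :
    ev c (r / s) = ev c r / ev c s := by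
  rw [div_eq_mul_inv, ev_mul hr (hs.inv h0), ev_inv hs h0, div_eq_mul_inv]

theorem regAt_C (c a : K) : RegAt c (RatFunc.C a) := by
  simp [RegAt]

theorem ev_C (c a : K) : ev c (RatFunc.C a) = a := by
  simp [ev]

theorem regAt_X (c : K) : RegAt c (RatFunc.X : RatFunc K) := by
  simp [RegAt]

theorem ev_X (c : K) : ev c (RatFunc.X : RatFunc K) = c := by
  simp [ev]

theorem poly_eq_zero_of_eventually [Infinite K] {p : K[X]}
    (h : ∀ᶠ c in Filter.cofinite, p.eval c = 0) : p = 0 := by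
  by_contra hp
  have h2 := (eventually_eval_ne_zero hp).and h
  obtain ⟨c, hc1, hc2⟩ := h2.exists
  exact hc1 hc2

theorem eq_of_eventually_ev_eq [Infinite K] {r s : RatFunc K}
    (h : ∀ᶠ c in Filter.cofinite, ev c r = ev c s) : r = s := by
  by_contra hne
  have hne' : r - s ≠ 0 := sub_ne_zero.2 hne
  have h2 := ((eventually_ev_ne_zero hne').and h).and
    ((eventually_regAt r).and (eventually_regAt s))
  obtain ⟨c, ⟨hc1, hc2⟩, hc3, hc4⟩ := h2.exists
  apply hc1
  rw [ev_sub hc3 hc4, hc2, sub_self]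

end Fermat.Agent.Lib.Hasse
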