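import Mathlib
import Fermat.Agent.Lib.Hasse.Defs
import Fermat.Agent.Lib.Hasse.PrimVec
import Fermat.Agent.Lib.Hasse.AddSub
import Fermat.Agent.Lib.Hasse.RatEval

set_option autoImplicit false
set_option linter.unusedSectionVars false
set_option linter.unusedSimpArgs false

namespace Fermat.Agent.Lib.Hasse

open Polynomial WeierstrassCurve.Affine

variable {K : Type*} [Field K]

/-! ### basic facts on `sw A B` -/

section Basic

variable {A B : K}

theorem sw_equation_iff (x y : K) : (sw A B).Equation x y ↔ y ^ 2 = x ^ 3 + A * x + B := by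
  rw [equation_iff]
  simp [sw]

theorem sw_negY (x y : K) : (sw A B).negY x y = -y := by
  simp [negY, sw]

theorem sw_nonsingular_of [NeZero (2 : K)] {x y : K} (h : y ^ 2 = x ^ 3 + A * x + B) (hy : y ≠ 0) :
    (sw A B).Nonsingular x y := by
  rw [nonsingular_iff']
  refine ⟨(sw_equation_iff x y).mpr h, Or.inr ?_⟩
  simp only [sw, zero_mul]
  intro h2
  have : (2 : K) * y = 0 := by linear_combination h2
  rcases mul_eq_zero.mp this with h3 | h3
  · exact NeZero.ne _ h3
  · exact hy h3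

theorem germ_eval_cubic (c : K) : (cubic A B).eval c = c ^ 3 + A * c + B := by
  simp [cubic]

theorem cubic_ne_zero : cubic A B ≠ 0 := by
  intro h
  have : (cubic A B).coeff 3 = 1 := by
    simp [cubic, coeff_X]
  rw [h] at this
  simp at this

theorem some_congr {W : WeierstrassCurve.Affine K} {x y x' y' : K} (h : W.Nonsingular x y)
    (hx : x = x') (hy : y = y') : ∃ h', Point.some x y h = Point.some x' y' h' := by
  subst hx hy
  exact ⟨h, rfl⟩

end Basic

section Exists

variable [IsAlgClosed K] {A B : K}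

theorem exists_sq (c : K) : ∃ y : K, y ^ 2 = c ^ 3 + A * c + B := by
  obtain ⟨y, hy⟩ := IsAlgClosed.exists_pow_nat_eq (c ^ 3 + A * c + B) (n := 2) (by norm_num)
  exact ⟨y, hy⟩

theorem eventually_exists_point [NeZero (2 : K)] :
    ∀ᶠ c in Filter.cofinite, ∃ (y : K) (_ : (sw A B).Nonsingular c y), y ≠ 0 := by
  have h1 : ∀ᶠ c in Filter.cofinite, (cubic A B).eval c ≠ 0 := by
    rw [Filter.eventually_cofinite]
    simp only [not_not]
    exact (cubic A B).finite_setOfPred_isRoot cubic_ne_zero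
  filter_upwards [h1] with c hc
  obtain ⟨y, hy⟩ := exists_sq (A := A) (B := B) c
  have hy0 : y ≠ 0 := by
    rintro rfl
    apply hc
    rw [germ_eval_cubic, ← hy]
    simp
  exact ⟨y, sw_nonsingular_of hy hy0, hy0⟩

end Exists

section C4

variable [DecidableEq K] [IsAlgClosed K] [NeZero (2 : K)] {A B : K}

theorem IsRat.unique {h : Pt A B → Pt A B} {r s r' s' : RatFunc K} (h1 : IsRat A B h r s)
    (h2 : IsRat A B h r' s') : r = r' ∧ s = s' := by
  have key : ∀ᶠ c in Filter.cofinite, ev c r = ev c r' ∧ ev c s = ev c s' := by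
    filter_upwards [h1, h2, eventually_exists_point (A := A) (B := B)] with c hc1 hc2 hc3
    obtain ⟨y, hy, hy0⟩ := hc3
    obtain ⟨_, e1⟩ := hc1 y hy
    obtain ⟨_, e2⟩ := hc2 y hy
    rw [e1, Point.some.injEq] at e2
    exact ⟨e2.1, mul_right_cancel₀ hy0 e2.2⟩
  exact ⟨eq_of_eventually_ev_eq (key.mono fun _ h => h.1),
    eq_of_eventually_ev_eq (key.mono fun _ h => h.2)⟩

theorem IsRat.not_isZ {h : Pt A B → Pt A B} {r s : RatFunc K} (h1 : IsRat A B h r s) :
    ¬ IsZ A B h := by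
  intro h2
  have key : ∀ᶠ _c : K in Filter.cofinite, False := by
    filter_upwards [h1, h2, eventually_exists_point (A := A) (B := B)] with c hc1 hc2 hc3
    obtain ⟨y, hy, -⟩ := hc3
    obtain ⟨_, e1⟩ := hc1 y hy
    rw [hc2 y hy] at e1
    exact Point.some_ne_zero _ e1.symm
  exact key.exists.choose_spec

theorem IsRat.gdeg_eq {h : Pt A B → Pt A B} {r s : RatFunc K} (h1 : IsRat A B h r s) :
    gdeg A B h = rdeg r := by
  have hh : ∃ r s, IsRat A B h r s := ⟨r, s, h1⟩
  rw [gdeg, dif_pos hh]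
  obtain ⟨s', hs'⟩ := hh.choose_spec
  rw [(hs'.unique h1).1]

theorem IsZ.gdeg_eq {h : Pt A B → Pt A B} (h1 : IsZ A B h) : gdeg A B h = 0 := by
  rw [gdeg, dif_neg]
  rintro ⟨r, s, h2⟩
  exact h2.not_isZ h1

theorem ev_cubicR (c : K) : ev c (cubicR A B) = c ^ 3 + A * c + B := by
  rw [cubicR, ev_algebraMap, germ_eval_cubic]

theorem regAt_cubicR (c : K) : RegAt c (cubicR A B) := regAt_algebraMap c _

theorem IsRat.curve_eq {h : Pt A B → Pt A B} {r s : RatFunc K} (h1 : IsRat A B h r s) :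
    s ^ 2 * cubicR A B = r ^ 3 + RatFunc.C A * r + RatFunc.C B := by
  apply eq_of_eventually_ev_eq
  filter_upwards [h1, eventually_exists_point (A := A) (B := B), eventually_regAt r,
    eventually_regAt s] with c hc1 hc3 hr hs
  obtain ⟨y, hy, -⟩ := hc3
  obtain ⟨hy', -⟩ := hc1 y hy
  have e1 := (sw_equation_iff _ _).mp hy'.1
  have e2 := (sw_equation_iff _ _).mp hy.1
  rw [ev_mul (hs.pow 2) (regAt_cubicR c), ev_pow hs, ev_cubicR,
    ev_add ((hr.pow 3).add ((regAt_C c A).mul hr)) (regAt_C c B),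
    ev_add (hr.pow 3) ((regAt_C c A).mul hr), ev_pow hr, ev_mul (regAt_C c A) hr, ev_C, ev_C]
  rw [← e1, ← e2]
  ring

theorem isRat_id : IsRat A B (id : Pt A B → Pt A B) RatFunc.X 1 := by
  refine Filter.Eventually.of_forall fun c y hy => ?_
  exact some_congr hy (ev_X c).symm (by rw [ev_one, one_mul])

theorem IsRat.neg {h : Pt A B → Pt A B} {r s : RatFunc K} (h1 : IsRat A B h r s) :
    IsRat A B (-h) r (-s) := by
  filter_upwards [h1] with c hc y hy
  obtain ⟨hy', e⟩ := hc y hy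
  rw [Pi.neg_apply, e, Point.neg_some]
  exact some_congr _ rfl (by rw [sw_negY, ev_neg, neg_mul])

theorem eventually_cubic_ne_zero : ∀ᶠ c in Filter.cofinite, c ^ 3 + A * c + B ≠ 0 := by
  have h1 : ∀ᶠ c in Filter.cofinite, (cubic A B).eval c ≠ 0 := by
    rw [Filter.eventually_cofinite]
    simp only [not_not]
    exact (cubic A B).finite_setOfPred_isRoot cubic_ne_zero
  filter_upwards [h1] with c hc
  rwa [germ_eval_cubic] at hc

theorem IsRat.add_aux {h₁ h₂ : Pt A B → Pt A B} {r₁ s₁ r₂ s₂ L : RatFunc K}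
    (H₁ : IsRat A B h₁ r₁ s₁) (H₂ : IsRat A B h₂ r₂ s₂)
    (hL : ∀ᶠ c in Filter.cofinite, ∀ y : K, y ^ 2 = c ^ 3 + A * c + B → y ≠ 0 →
      ¬(ev c r₁ = ev c r₂ ∧ ev c s₁ * y = (sw A B).negY (ev c r₂) (ev c s₂ * y)) ∧
      (sw A B).slope (ev c r₁) (ev c r₂) (ev c s₁ * y) (ev c s₂ * y) = ev c L * y) :
    IsRat A B (h₁ + h₂) (L ^ 2 * cubicR A B - r₁ - r₂)
      (-(s₁ + L * (L ^ 2 * cubicR A B - r₁ - r₂ - r₁))) := by
  filter_upwards [H₁, H₂, hL, eventually_regAt r₁, eventually_regAt s₁, eventually_regAt r₂,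
    eventually_regAt L, eventually_cubic_ne_zero (A := A) (B := B)] with c c1 c2 cL hr₁ hs₁ hr₂ hLr hf
  intro y hy
  have hyeq := (sw_equation_iff _ _).mp hy.1
  have hy0 : y ≠ 0 := by
    rintro rfl
    apply hf
    rw [← hyeq]; ring
  obtain ⟨hy₁, e₁⟩ := c1 y hy
  obtain ⟨hy₂, e₂⟩ := c2 y hy
  obtain ⟨hxy, hsl⟩ := cL y hyeq hy0
  rw [Pi.add_apply, e₁, e₂, Point.add_some hxy]
  have hreg3 : RegAt c (L ^ 2 * cubicR A B - r₁ - r₂) :=
    (((hLr.pow 2).mul (regAt_cubicR c)).sub hr₁).sub hr₂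
  have hev3 : ev c (L ^ 2 * cubicR A B - r₁ - r₂)
      = (ev c L) ^ 2 * (c ^ 3 + A * c + B) - ev c r₁ - ev c r₂ := by
    rw [ev_sub (((hLr.pow 2).mul (regAt_cubicR c)).sub hr₁) hr₂,
      ev_sub ((hLr.pow 2).mul (regAt_cubicR c)) hr₁, ev_mul (hLr.pow 2) (regAt_cubicR c),
      ev_pow hLr, ev_cubicR]
  have hX : (sw A B).addX (ev c r₁) (ev c r₂)
      ((sw A B).slope (ev c r₁) (ev c r₂) (ev c s₁ * y) (ev c s₂ * y))
      = ev c (L ^ 2 * cubicR A B - r₁ - r₂) := by
    rw [hsl, hev3, ← hyeq]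
    simp only [addX, sw]
    ring
  refine some_congr _ hX ?_
  rw [addY, negAddY, hX, sw_negY, hsl, ev_neg, ev_add hs₁ (hLr.mul (hreg3.sub hr₁)),
    ev_mul hLr (hreg3.sub hr₁), ev_sub hreg3 hr₁]
  ring

theorem IsRat.add_of_ne {h₁ h₂ : Pt A B → Pt A B} {r₁ s₁ r₂ s₂ : RatFunc K}
    (H₁ : IsRat A B h₁ r₁ s₁) (H₂ : IsRat A B h₂ r₂ s₂) (hne : r₁ ≠ r₂) :
    ∃ s₃, IsRat A B (h₁ + h₂) ((s₁ - s₂) ^ 2 * cubicR A B / (r₁ - r₂) ^ 2 - r₁ - r₂) s₃ := by
  have hne' : r₁ - r₂ ≠ 0 := sub_ne_zero.mpr hne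
  have key := IsRat.add_aux (L := (s₁ - s₂) * (r₁ - r₂)⁻¹) H₁ H₂ (by
    filter_upwards [eventually_regAt r₁, eventually_regAt s₁, eventually_regAt r₂,
      eventually_regAt s₂, eventually_ev_ne_zero hne'] with c hr₁ hs₁ hr₂ hs₂ hne0
    intro y _ _
    have hsub : ev c (r₁ - r₂) = ev c r₁ - ev c r₂ := ev_sub hr₁ hr₂
    have hx : ev c r₁ ≠ ev c r₂ := by
      intro h
      apply hne0
      rw [hsub, h, sub_self]
    refine ⟨fun h => hx h.1, ?_⟩
    rw [slope_of_X_ne hx, ev_mul (hs₁.sub hs₂) ((hr₁.sub hr₂).inv hne0), ev_inv (hr₁.sub hr₂) hne0,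
      ev_sub hs₁ hs₂, hsub]
    field_simp)
  have hr3 : (s₁ - s₂) ^ 2 * cubicR A B / (r₁ - r₂) ^ 2 - r₁ - r₂
      = ((s₁ - s₂) * (r₁ - r₂)⁻¹) ^ 2 * cubicR A B - r₁ - r₂ := by
    field_simp
  rw [hr3]
  exact ⟨_, key⟩

theorem IsRat.add_self {h : Pt A B → Pt A B} {r s : RatFunc K}
    (H : IsRat A B h r s) (hs : s ≠ 0) : ∃ r₃ s₃, IsRat A B (h + h) r₃ s₃ := by
  have hden : RatFunc.C 2 * s * cubicR A B ≠ 0 := by
    refine mul_ne_zero (mul_ne_zero ?_ hs) ?_
    · rw [Ne, map_eq_zero]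
      exact NeZero.ne _
    · rw [cubicR]
      simpa using cubic_ne_zero
  have key := IsRat.add_aux (L := (RatFunc.C 3 * r ^ 2 + RatFunc.C A) * (RatFunc.C 2 * s * cubicR A B)⁻¹)
    H H (by
    filter_upwards [eventually_regAt r, eventually_regAt s, eventually_ev_ne_zero hden]
      with c hr hs' hne0
    intro y hy hy0
    have hreg : RegAt c (RatFunc.C 2 * s * cubicR A B) :=
      ((regAt_C c 2).mul hs').mul (regAt_cubicR c)
    have hev : ev c (RatFunc.C 2 * s * cubicR A B) = 2 * ev c s * (c ^ 3 + A * c + B) := by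
      rw [ev_mul ((regAt_C c 2).mul hs') (regAt_cubicR c), ev_mul (regAt_C c 2) hs', ev_C, ev_cubicR]
    rw [hev] at hne0
    have hs0 : ev c s ≠ 0 := by
      intro h
      apply hne0
      rw [h]; ring
    have h20 : (2 : K) ≠ 0 := NeZero.ne _
    have hY : ev c s * y ≠ (sw A B).negY (ev c r) (ev c s * y) := by
      rw [sw_negY]
      intro h
      have : 2 * (ev c s * y) = 0 := by linear_combination h
      exact (mul_ne_zero h20 (mul_ne_zero hs0 hy0)) this
    refine ⟨fun h => hY h.2, ?_⟩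
    rw [slope_of_Y_ne rfl hY, sw_negY,
      ev_mul (((regAt_C c 3).mul (hr.pow 2)).add (regAt_C c A)) (hreg.inv (by rw [hev]; exact hne0)),
      ev_inv hreg (by rw [hev]; exact hne0), hev,
      ev_add ((regAt_C c 3).mul (hr.pow 2)) (regAt_C c A), ev_mul (regAt_C c 3) (hr.pow 2),
      ev_pow hr, ev_C, ev_C, ← hy]
    simp only [sw]
    have hyy : y * y ≠ 0 := mul_ne_zero hy0 hy0
    field_simp
    ring_nf
    field_simp
    ring)
  exact ⟨_, _, key⟩

theorem IsRat.congr {h h' : Pt A B → Pt A B} {r s : RatFunc K} (H : IsRat A B h r s)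
    (hh : ∀ᶠ c in Filter.cofinite, ∀ (y : K) (hy : (sw A B).Nonsingular c y),
      h' (.some c y hy) = h (.some c y hy)) : IsRat A B h' r s := by
  filter_upwards [H, hh] with c hc hc' y hy
  rw [hc' y hy]
  exact hc y hy

theorem IsZ.congr {h h' : Pt A B → Pt A B} (H : IsZ A B h)
    (hh : ∀ᶠ c in Filter.cofinite, ∀ (y : K) (hy : (sw A B).Nonsingular c y),
      h' (.some c y hy) = h (.some c y hy)) : IsZ A B h' := by
  filter_upwards [H, hh] with c hc hc' y hy
  rw [hc' y hy]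
  exact hc y hy

theorem IsGerm.congr {h h' : Pt A B → Pt A B} (H : IsGerm A B h)
    (hh : ∀ᶠ c in Filter.cofinite, ∀ (y : K) (hy : (sw A B).Nonsingular c y),
      h' (.some c y hy) = h (.some c y hy)) : IsGerm A B h' := by
  rcases H with H | ⟨r, s, H⟩
  · exact Or.inl (H.congr hh)
  · exact Or.inr ⟨r, s, H.congr hh⟩

theorem IsGerm.add {h₁ h₂ : Pt A B → Pt A B} (H₁ : IsGerm A B h₁) (H₂ : IsGerm A B h₂) :
    IsGerm A B (h₁ + h₂) := by
  rcases H₁ with H₁ | ⟨r₁, s₁, H₁⟩
  · refine H₂.congr ?_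
    filter_upwards [H₁] with c hc y hy
    rw [Pi.add_apply, hc y hy, zero_add]
  rcases H₂ with H₂ | ⟨r₂, s₂, H₂⟩
  · refine IsGerm.congr (Or.inr ⟨r₁, s₁, H₁⟩) ?_
    filter_upwards [H₂] with c hc y hy
    rw [Pi.add_apply, hc y hy, add_zero]
  by_cases hr : r₁ = r₂
  · subst hr
    have hsq : s₁ ^ 2 = s₂ ^ 2 := by
      have h1 := H₁.curve_eq
      have h2 := H₂.curve_eq
      have hf : cubicR A B ≠ 0 := by
        rw [cubicR]
        simpa using cubic_ne_zero
      exact mul_right_cancel₀ hf (h1.trans h2.symm)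
    by_cases hs : s₁ = -s₂
    · left
      filter_upwards [H₁, H₂] with c c1 c2 y hy
      obtain ⟨_, e₁⟩ := c1 y hy
      obtain ⟨_, e₂⟩ := c2 y hy
      rw [Pi.add_apply, e₁, e₂]
      apply Point.add_of_Y_eq rfl
      rw [sw_negY, hs, ev_neg]
      ring
    · have hs' : s₁ = s₂ := (sq_eq_sq_iff_eq_or_eq_neg.mp hsq).resolve_right hs
      subst hs'
      have hs0 : s₁ ≠ 0 := by
        rintro rfl
        exact hs (by simp)
      obtain ⟨r₃, s₃, H₃⟩ := H₁.add_self hs0
      refine Or.inr ⟨r₃, s₃, H₃.congr ?_⟩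
      filter_upwards [H₁, H₂] with c c1 c2 y hy
      obtain ⟨_, e₁⟩ := c1 y hy
      obtain ⟨_, e₂⟩ := c2 y hy
      rw [Pi.add_apply, Pi.add_apply, e₁, e₂]
  · obtain ⟨s₃, H₃⟩ := H₁.add_of_ne H₂ hr
    exact Or.inr ⟨_, s₃, H₃⟩

theorem IsGerm.neg {h : Pt A B → Pt A B} (H : IsGerm A B h) : IsGerm A B (-h) := by
  rcases H with H | ⟨r, s, H⟩
  · left
    filter_upwards [H] with c hc y hy
    rw [Pi.neg_apply, hc y hy, neg_zero]
  · exact Or.inr ⟨r, -s, H.neg⟩

theorem isGerm_zero : IsGerm A B (0 : Pt A B → Pt A B) :=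
  Or.inl (Filter.Eventually.of_forall fun _ _ _ => rfl)

theorem IsGerm.sub {h₁ h₂ : Pt A B → Pt A B} (H₁ : IsGerm A B h₁) (H₂ : IsGerm A B h₂) :
    IsGerm A B (h₁ - h₂) := by
  rw [sub_eq_add_neg]
  exact H₁.add H₂.neg

/-- the subgroup of germs. -/
def germs (A B : K) : AddSubgroup (Pt A B → Pt A B) where
  carrier := {h | IsGerm A B h}
  add_mem' := IsGerm.add
  zero_mem' := isGerm_zero
  neg_mem' := IsGerm.neg

theorem mem_germs {h : Pt A B → Pt A B} : h ∈ germs A B ↔ IsGerm A B h := Iff.rfl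

/-! ### the primitive pair of a germ and the parallelogram law -/

/-- `a` is a primitive pair of polynomials representing the `x`-coordinate of `h`. -/
def HasPair (A B : K) (h : Pt A B → Pt A B) (a : Fin 2 → K[X]) : Prop :=
  IsPrim a ∧ maxDeg a = gdeg A B h ∧
    ∀ᶠ c in Filter.cofinite, ∀ (y : K) (hy : (sw A B).Nonsingular c y),
      ∃ μ : K, ∀ i, (a i).eval c = μ * (h (.some c y hy)).xRep i

theorem IsGerm.hasPair {h : Pt A B → Pt A B} (H : IsGerm A B h) : ∃ a, HasPair A B h a := by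
  rcases H with H | ⟨r, s, H⟩
  · refine ⟨![1, 0], isPrim_one_zero, ?_, ?_⟩
    · rw [maxDeg_one_zero, H.gdeg_eq]
    · filter_upwards [H] with c hc y hy
      refine ⟨1, fun i => ?_⟩
      rw [hc y hy, Point.xRep_zero]
      fin_cases i <;> simp
  · refine ⟨![r.num, r.denom], isPrim_num_denom r, ?_, ?_⟩
    · rw [maxDeg_num_denom, H.gdeg_eq]
    · filter_upwards [H, eventually_regAt r] with c hc hr y hy
      obtain ⟨_, e⟩ := hc y hy
      refine ⟨r.denom.eval c, fun i => ?_⟩
      rw [e, Point.xRep_some, ev_eq_div]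
      have hr' : r.denom.eval c ≠ 0 := hr
      fin_cases i
      · simp only [Fin.zero_eta, Matrix.cons_val_zero]
        field_simp
      · simp

theorem eval_sym2 (a b : Fin 2 → K[X]) (c : K) (i : Fin 3) :
    (sym2 a b i).eval c = sym2 (fun k => (a k).eval c) (fun k => (b k).eval c) i := by
  fin_cases i <;> simp [sym2]

theorem eval_phi (v : Fin 3 → K[X]) (c : K) (i : Fin 3) :
    (phi (C A) (C B) v i).eval c = phi A B (fun k => (v k).eval c) i := by
  fin_cases i <;> simp [phi]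

theorem sym2_smul (μ ν : K) (a b : Fin 2 → K) (i : Fin 3) :
    sym2 (fun k => μ * a k) (fun k => ν * b k) i = μ * ν * sym2 a b i := by
  fin_cases i <;> simp [sym2] <;> ring

theorem phi_smul (μ : K) (v : Fin 3 → K) (i : Fin 3) :
    phi A B (fun k => μ * v k) i = μ ^ 2 * phi A B v i := by
  fin_cases i <;> simp [phi] <;> ring

theorem gdeg_parallelogram (hΔ : 16 * (4 * A ^ 3 + 27 * B ^ 2) ≠ 0) {h₁ h₂ : Pt A B → Pt A B}
    (H₁ : IsGerm A B h₁) (H₂ : IsGerm A B h₂) :
    gdeg A B (h₁ + h₂) + gdeg A B (h₁ - h₂) = 2 * gdeg A B h₁ + 2 * gdeg A B h₂ := by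
  obtain ⟨a₁, p₁, d₁, e₁⟩ := H₁.hasPair
  obtain ⟨a₂, p₂, d₂, e₂⟩ := H₂.hasPair
  obtain ⟨a₃, p₃, d₃, e₃⟩ := (H₁.add H₂).hasPair
  obtain ⟨a₄, p₄, d₄, e₄⟩ := (H₁.sub H₂).hasPair
  rw [← d₁, ← d₂, ← d₃, ← d₄]
  apply parallelogram_alg hΔ p₁ p₂ p₃ p₄
  intro i j
  rw [← sub_eq_zero]
  apply poly_eq_zero_of_eventually
  filter_upwards [e₁, e₂, e₃, e₄, eventually_exists_point (A := A) (B := B)] with c c₁ c₂ c₃ c₄ hc
  obtain ⟨y, hy, -⟩ := hc
  obtain ⟨μ₁, m₁⟩ := c₁ y hy
  obtain ⟨μ₂, m₂⟩ := c₂ y hy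
  obtain ⟨μ₃, m₃⟩ := c₃ y hy
  obtain ⟨μ₄, m₄⟩ := c₄ y hy
  have key := prop_sym2_xRep A B (h₁ (.some c y hy)) (h₂ (.some c y hy)) i j
  rw [eval_sub, eval_mul, eval_mul, eval_sym2, eval_sym2, eval_phi, eval_phi]
  simp only [eval_sym2]
  simp only [m₁, m₂, m₃, m₄, sym2_smul, phi_smul, Pi.add_apply, Pi.sub_apply]
  linear_combination (μ₃ * μ₄ * (μ₁ * μ₂) ^ 2) * key

/-! ### from almost all `x`-coordinates to almost all points -/

theorem finite_sq_eq (a : K) : {y : K | y ^ 2 = a}.Finite := by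
  have : {y : K | y ^ 2 = a} = ↑(nthRoots 2 a).toFinset := by
    ext y
    simp [mem_nthRoots]
  rw [this]
  exact Finset.finite_toSet _

theorem eventually_point {p : Pt A B → Prop}
    (h : ∀ᶠ c in Filter.cofinite, ∀ (y : K) (hy : (sw A B).Nonsingular c y), p (.some c y hy)) :
    ∀ᶠ P in Filter.cofinite, p P := by
  classical
  rw [Filter.eventually_cofinite] at h ⊢
  set Bad := {c : K | ¬∀ (y : K) (hy : (sw A B).Nonsingular c y), p (.some c y hy)} with hBad
  let g : K × K → Pt A B := fun z =>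
    if hz : (sw A B).Nonsingular z.1 z.2 then .some z.1 z.2 hz else 0
  have hT : (Bad ×ˢ (⋃ c ∈ Bad, {y : K | y ^ 2 = c ^ 3 + A * c + B})).Finite :=
    h.prod (h.biUnion fun c _ => finite_sq_eq _)
  refine ((hT.image g).insert 0).subset ?_
  intro P hP
  rcases P with _ | ⟨c, y, hy⟩
  · exact Set.mem_insert _ _
  · right
    have hc : c ∈ Bad := by
      intro hall
      exact hP (hall y hy)
    refine ⟨(c, y), ⟨hc, ?_⟩, ?_⟩
    · simp only [Set.mem_iUnion]
      exact ⟨c, hc, (sw_equation_iff _ _).mp hy.1⟩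
    · simp only [g, dif_pos hy]

theorem infinite_Pt : Infinite (Pt A B) := by
  classical
  have h := eventually_exists_point (A := A) (B := B)
  have hinf : {c : K | ∃ (y : K) (_ : (sw A B).Nonsingular c y), y ≠ 0}.Infinite := by
    have : {c : K | ∃ (y : K) (_ : (sw A B).Nonsingular c y), y ≠ 0}ᶜ.Finite := by
      rw [Filter.eventually_cofinite] at h
      exact h
    exact this.infinite_compl.mono (by rw [compl_compl])
  have := hinf.to_subtype
  refine Infinite.of_injective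
    (fun c : {c : K | ∃ (y : K) (_ : (sw A B).Nonsingular c y), y ≠ 0} =>
      (Point.some c.1 c.2.choose c.2.choose_spec.choose : Pt A B)) ?_
  intro c c' hcc
  simp only [Point.some.injEq] at hcc
  exact Subtype.ext hcc.1

/-- a homomorphism vanishing at almost all points vanishes. -/
theorem hom_eq_zero_of_eventually (ψ : Pt A B →+ Pt A B)
    (h : ∀ᶠ P in Filter.cofinite, ψ P = 0) : ψ = 0 := by
  have := infinite_Pt (A := A) (B := B)
  ext P
  have h2 : ∀ᶠ Q in Filter.cofinite, ψ (Q + P) = 0 :=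
    (add_left_injective P).tendsto_cofinite.eventually h
  obtain ⟨Q, hQ1, hQ2⟩ := (h.and h2).exists
  rw [map_add, hQ1, zero_add] at hQ2
  simpa using hQ2

theorem rdeg_eq_zero_iff {r : RatFunc K} (h : rdeg r = 0) : ∃ t : K, r = RatFunc.C t := by
  have h1 : r.num.natDegree = 0 := by
    have := le_max_left r.num.natDegree r.denom.natDegree
    rw [rdeg] at h; omega
  have h2 : r.denom.natDegree = 0 := by
    have := le_max_right r.num.natDegree r.denom.natDegree
    rw [rdeg] at h; omega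
  obtain ⟨a, ha⟩ := natDegree_eq_zero.mp h1
  obtain ⟨b, hb⟩ := natDegree_eq_zero.mp h2
  refine ⟨a / b, ?_⟩
  rw [← RatFunc.num_div_denom r, ← ha, ← hb]
  simp

/-- a homomorphism which is a germ of degree `0` vanishes. -/
theorem eq_zero_of_gdeg_eq_zero (ψ : Pt A B →+ Pt A B)
    (H : IsGerm A B ψ) (h0 : gdeg A B ψ = 0) : ψ = 0 := by
  classical
  have hinf := infinite_Pt (A := A) (B := B)
  rcases H with H | ⟨r, s, H⟩
  · exact hom_eq_zero_of_eventually ψ (eventually_point H)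
  · exfalso
    rw [H.gdeg_eq] at h0
    obtain ⟨t, rfl⟩ := rdeg_eq_zero_iff h0
    -- almost all points are sent to points with `x`-coordinate `t`
    have h1 : ∀ᶠ P in Filter.cofinite, ∃ (w : K) (hw : (sw A B).Nonsingular t w),
        ψ P = .some t w hw := by
      apply eventually_point
      filter_upwards [H] with c hc y hy
      obtain ⟨hy', e⟩ := hc y hy
      rw [ev_C] at hy'
      exact ⟨_, hy', by rw [e]; simp only [ev_C]⟩
    -- the kernel is finite
    have hker : {P : Pt A B | ψ P = 0}.Finite := by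
      rw [Filter.eventually_cofinite] at h1
      refine h1.subset ?_
      intro P hP
      rintro ⟨w, hw, e⟩
      rw [Set.mem_ofPred_eq] at hP
      rw [hP] at e
      exact Point.some_ne_zero _ e.symm
    -- the range is finite
    have hT : {R : Pt A B | ∃ (w : K) (hw : (sw A B).Nonsingular t w), R = .some t w hw}.Finite := by
      let g : K → Pt A B := fun w => if hw : (sw A B).Nonsingular t w then .some t w hw else 0
      refine ((finite_sq_eq (t ^ 3 + A * t + B)).image g).subset ?_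
      rintro R ⟨w, hw, rfl⟩
      exact ⟨w, (sw_equation_iff _ _).mp hw.1, by simp only [g, dif_pos hw]⟩
    have hrange : (Set.range ψ).Finite := by
      rw [Filter.eventually_cofinite] at h1
      refine (hT.union (h1.image ψ)).subset ?_
      rintro _ ⟨P, rfl⟩
      by_cases hP : ∃ (w : K) (hw : (sw A B).Nonsingular t w), ψ P = .some t w hw
      · exact Or.inl hP
      · exact Or.inr ⟨P, hP, rfl⟩
    have := hrange.to_subtype
    obtain ⟨R, hR⟩ := Finite.exists_infinite_fiber (fun P => (⟨ψ P, P, rfl⟩ : Set.range ψ))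
    rw [Set.infinite_coe_iff] at hR
    obtain ⟨Q₀, hQ₀⟩ := hR.nonempty
    apply (hR.image (add_left_injective (-Q₀)).injOn).mono _ hker
    rintro _ ⟨Q, hQ, rfl⟩
    simp only [Set.mem_preimage, Set.mem_singleton_iff] at hQ hQ₀
    have e1 : ψ Q = R := congrArg Subtype.val hQ
    have e2 : ψ Q₀ = R := congrArg Subtype.val hQ₀
    simp only [Set.mem_ofPred_eq, map_add, map_neg, e1, e2, add_neg_cancel]

/-- a subgroup containing almost all points is everything. -/
theorem forall_mem_of_eventually_mem (S : AddSubgroup (Pt A B))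
    (h : ∀ᶠ P in Filter.cofinite, P ∈ S) (R : Pt A B) : R ∈ S := by
  have := infinite_Pt (A := A) (B := B)
  have h2 : ∀ᶠ Q in Filter.cofinite, Q + R ∈ S :=
    (add_left_injective R).tendsto_cofinite.eventually h
  obtain ⟨Q, hQ1, hQ2⟩ := (h.and h2).exists
  simpa using S.sub_mem hQ2 hQ1

/-- a non-constant rational function takes almost all values at points of a given cofinite set. -/
theorem eventually_exists_ev_eq {r : RatFunc K} (hr : 0 < rdeg r) {p : K → Prop}
    (hp : ∀ᶠ c in Filter.cofinite, p c) :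
    ∀ᶠ t in Filter.cofinite, ∃ c, p c ∧ ev c r = t := by
  classical
  set D := rdeg r with hD
  -- the coefficient of degree `D` of `num - t * denom` is nonzero for almost all `t`
  have h1 : ∀ᶠ t in Filter.cofinite, r.num.coeff D - t * r.denom.coeff D ≠ 0 := by
    by_cases hm : r.denom.coeff D = 0
    · have hn : r.num.coeff D ≠ 0 := by
        intro hn
        rcases le_total r.num.natDegree r.denom.natDegree with hle | hle
        · have : D = r.denom.natDegree := by rw [hD, rdeg, max_eq_right hle]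
          rw [this, coeff_natDegree, leadingCoeff_eq_zero] at hm
          exact r.denom_ne_zero hm
        · have hDn : D = r.num.natDegree := by rw [hD, rdeg, max_eq_left hle]
          rw [hDn, coeff_natDegree, leadingCoeff_eq_zero] at hn
          rw [hn, natDegree_zero] at hDn
          omega
      refine Filter.Eventually.of_forall fun t => ?_
      rw [hm, mul_zero, sub_zero]
      exact hn
    · rw [Filter.eventually_cofinite]
      refine (Set.finite_singleton (r.num.coeff D / r.denom.coeff D)).subset ?_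
      intro t ht
      simp only [Set.mem_ofPred_eq, not_not] at ht
      rw [Set.mem_singleton_iff]
      field_simp
      linear_combination -ht
  have h2 : ∀ᶠ t in Filter.cofinite, t ∉ (fun c => ev c r) '' {c | ¬ p c} := by
    rw [Filter.eventually_cofinite] at hp ⊢
    simp only [not_not]
    exact hp.image _
  filter_upwards [h1, h2] with t ht1 ht2
  have hdeg : (r.num - C t * r.denom).degree ≠ 0 := by
    intro h0
    have h3 : (r.num - C t * r.denom).coeff D = 0 := by
      apply coeff_eq_zero_of_degree_lt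
      rw [h0]
      exact_mod_cast hr
    rw [coeff_sub, coeff_C_mul] at h3
    exact ht1 h3
  obtain ⟨c, hc⟩ := IsAlgClosed.exists_root _ hdeg
  rw [IsRoot.def, eval_sub, eval_mul, eval_C, sub_eq_zero] at hc
  have hden : r.denom.eval c ≠ 0 := by
    intro h0
    rw [h0, mul_zero] at hc
    obtain ⟨u, v, huv⟩ := r.isCoprime_num_denom
    have := congrArg (eval c) huv
    rw [eval_add, eval_mul, eval_mul, hc, h0] at this
    simp at this
  have hev : ev c r = t := by
    rw [ev_eq_div, hc]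
    field_simp
  refine ⟨c, ?_, hev⟩
  by_contra hpc
  exact ht2 ⟨c, hpc, hev⟩

/-- a homomorphism which is a germ of positive degree is surjective. -/
theorem surjective_of_gdeg_pos (ψ : Pt A B →+ Pt A B)
    (H : IsGerm A B ψ) (h0 : 0 < gdeg A B ψ) : Function.Surjective ψ := by
  rcases H with H | ⟨r, s, H⟩
  · rw [H.gdeg_eq] at h0
    exact absurd h0 (lt_irrefl _)
  rw [H.gdeg_eq] at h0
  have h1 := eventually_exists_ev_eq h0 (H.and (eventually_exists_point (A := A) (B := B)))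
  have h2 : ∀ᶠ R in Filter.cofinite, R ∈ ψ.range := by
    apply eventually_point
    filter_upwards [h1] with t ht w hw
    obtain ⟨c, ⟨hc, y, hy, -⟩, rfl⟩ := ht
    obtain ⟨hy', e⟩ := hc y hy
    rcases (Point.X_eq_iff (h₁ := hw) (h₂ := hy')).mp rfl with h3 | h3
    · exact ⟨_, by rw [e, h3]⟩
    · exact ⟨-(.some c y hy), by rw [map_neg, e, h3]⟩
  intro R
  exact forall_mem_of_eventually_mem ψ.range h2 R

end C4

end Fermat.Agent.Lib.Hasse
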