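import Mathlib
import Fermat.Agent.Lib.Hasse.Defs

set_option autoImplicit false

namespace Fermat.Agent.Lib.Hasse

open Polynomial

variable {K : Type*} [Field K]

section QuadAux

variable {H : Type*} [AddCommGroup H] (d : H → ℤ)
  (hd : ∀ x y : H, d (x + y) + d (x - y) = 2 * d x + 2 * d y)

include hd

theorem quad_aux_zero : d 0 = 0 := by
  have h := hd 0 0
  simp only [add_zero, sub_zero] at h
  omega

theorem quad_aux_three (x y z : H) :
    d (x + y + z) = d (x + y) + d (x + z) + d (y + z) - d x - d y - d z := by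
  have ha := hd (x + z) y
  have hb := hd (x + y) z
  have hc := hd x (y - z)
  have hdd := hd y z
  have e1 : x + z + y = x + y + z := by abel
  have e2 : x + (y - z) = x + y - z := by abel
  have e3 : x - (y - z) = x + z - y := by abel
  rw [e1] at ha
  rw [e2, e3] at hc
  omega

/-- the associated bilinear form, as an additive map in the second variable -/
noncomputable def quadAuxB (x : H) : H →+ ℤ :=
  AddMonoidHom.mk' (fun y => d (x + y) - d x - d y) (by
    intro y z
    have h := quad_aux_three d hd x y z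
    have e : x + (y + z) = x + y + z := by abel
    rw [e, h]
    ring)

theorem quadAuxB_apply (x y : H) : quadAuxB d hd x y = d (x + y) - d x - d y := rfl

theorem quadAuxB_comm (x y : H) : quadAuxB d hd x y = quadAuxB d hd y x := by
  rw [quadAuxB_apply, quadAuxB_apply, add_comm x y]
  ring

theorem quadAuxB_zsmul_zsmul (m n : ℤ) (x y : H) :
    quadAuxB d hd (m • x) (n • y) = m * n * quadAuxB d hd x y := by
  rw [map_zsmul, quadAuxB_comm, map_zsmul, quadAuxB_comm]
  simp only [smul_eq_mul]
  ring

theorem quadAuxB_self (x : H) : quadAuxB d hd x x = 2 * d x := by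
  have h := hd x x
  rw [sub_self, quad_aux_zero d hd] at h
  rw [quadAuxB_apply]
  omega

theorem quad_aux_zsmul (m : ℤ) (x : H) : d (m • x) = m ^ 2 * d x := by
  have h1 := quadAuxB_self d hd (m • x)
  have h2 := quadAuxB_zsmul_zsmul d hd m m x x
  have h3 := quadAuxB_self d hd x
  have : 2 * d (m • x) = 2 * (m ^ 2 * d x) := by
    rw [← h1, h2, h3]; ring
  omega

theorem quad_aux_main (x y z : H) (m n k : ℤ) :
    d (m • x + n • y + k • z) = m ^ 2 * d x + n ^ 2 * d y + k ^ 2 * d z
      + m * n * (d (x + y) - d x - d y) + m * k * (d (x + z) - d x - d z)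
      + n * k * (d (y + z) - d y - d z) := by
  have h := quad_aux_three d hd (m • x) (n • y) (k • z)
  have h1 := quadAuxB_zsmul_zsmul d hd m n x y
  have h2 := quadAuxB_zsmul_zsmul d hd m k x z
  have h3 := quadAuxB_zsmul_zsmul d hd n k y z
  simp only [quadAuxB_apply, quad_aux_zsmul d hd] at h1 h2 h3
  rw [h, quad_aux_zsmul d hd, quad_aux_zsmul d hd, quad_aux_zsmul d hd]
  linarith

end QuadAux

theorem quad_three {G : Type*} [AddCommGroup G] (S : AddSubgroup G) (d : G → ℤ)
    (hd : ∀ x ∈ S, ∀ y ∈ S, d (x + y) + d (x - y) = 2 * d x + 2 * d y)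
    {x y z : G} (hx : x ∈ S) (hy : y ∈ S) (hz : z ∈ S) (m n k : ℤ) :
    d (m • x + n • y + k • z) = m ^ 2 * d x + n ^ 2 * d y + k ^ 2 * d z
      + m * n * (d (x + y) - d x - d y) + m * k * (d (x + z) - d x - d z)
      + n * k * (d (y + z) - d y - d z) := by
  have h := quad_aux_main (H := S) (fun s => d (s : G))
    (fun a b => by simpa using hd a a.2 b b.2) ⟨x, hx⟩ ⟨y, hy⟩ ⟨z, hz⟩ m n k
  simpa using h

end Fermat.Agent.Lib.Hasse
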