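import Mathlib
import Fermat.Agent.Lib.Hasse.Defs
import Fermat.Agent.Lib.Hasse.Germ

set_option autoImplicit false
set_option linter.unusedSectionVars false

namespace Fermat.Agent.Lib.Hasse

open Polynomial WeierstrassCurve WeierstrassCurve.Affine

variable {K : Type*} [Field K]

/-- `c ↦ c ^ q` pulls back cofinite sets to cofinite sets. -/
theorem compFrob_eventually_pow {q : ℕ} (hq : 0 < q) {p : K → Prop}
    (h : ∀ᶠ c in Filter.cofinite, p c) : ∀ᶠ c in Filter.cofinite, p (c ^ q) := by
  rw [Filter.eventually_cofinite] at h ⊢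
  have h1 : {c : K | ¬p (c ^ q)} = ⋃ t ∈ {t : K | ¬p t}, {c : K | c ^ q = t} := by
    ext c
    simp
  rw [h1]
  refine h.biUnion fun t _ => ?_
  have hne : (X ^ q - C t : K[X]) ≠ 0 := (monic_X_pow_sub_C t hq.ne').ne_zero
  refine ((X ^ q - C t : K[X]).rootSet_finite K).subset ?_
  intro c hc
  rw [mem_rootSet]
  have hc' : c ^ q = t := hc
  exact ⟨hne, by simp [hc']⟩

/-- substitution `X ↦ X ^ q` in a rational function. -/
noncomputable def compFrobSubst (q : ℕ) (r : RatFunc K) : RatFunc K :=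
  algebraMap K[X] (RatFunc K) (expand K q r.num) / algebraMap K[X] (RatFunc K) (expand K q r.denom)

theorem compFrob_regAt_ev {q : ℕ} {r : RatFunc K} {c : K} (hc : RegAt (c ^ q) r) :
    RegAt c (compFrobSubst q r) ∧ ev c (compFrobSubst q r) = ev (c ^ q) r := by
  have hd : ev c (algebraMap K[X] (RatFunc K) (expand K q r.denom)) ≠ 0 := by
    rw [ev_algebraMap, expand_eval]
    exact hc
  have h1 := regAt_algebraMap c (expand K q r.num)
  have h2 := regAt_algebraMap c (expand K q r.denom)
  constructor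
  · rw [compFrobSubst, div_eq_mul_inv]
    exact h1.mul (h2.inv hd)
  · rw [compFrobSubst, div_eq_mul_inv, ev_mul h1 (h2.inv hd), ev_inv h2 hd, ev_algebraMap,
      ev_algebraMap, expand_eval, expand_eval, ev_eq_div, div_eq_mul_inv]

theorem compFrob_rdeg {q : ℕ} (hq : 0 < q) (r : RatFunc K) :
    rdeg (compFrobSubst q r) = q * rdeg r := by
  have hcop : IsCoprime (expand K q r.num) (expand K q r.denom) := by
    obtain ⟨a, b, hab⟩ := RatFunc.isCoprime_num_denom r
    exact ⟨expand K q a, expand K q b, by rw [← map_mul, ← map_mul, ← map_add, hab, map_one]⟩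
  have hne : expand K q r.denom ≠ 0 := (expand_ne_zero hq).2 r.denom_ne_zero
  rw [compFrobSubst, rdeg_div hne hcop, natDegree_expand, natDegree_expand, rdeg,
    Nat.mul_comm q]
  rcases le_total r.num.natDegree r.denom.natDegree with h | h
  · rw [max_eq_right h, max_eq_right (Nat.mul_le_mul_right q h)]
  · rw [max_eq_left h, max_eq_left (Nat.mul_le_mul_right q h)]

variable [DecidableEq K] [IsAlgClosed K] [NeZero (2 : K)]

theorem IsGerm.comp_frob {A B : K} {q : ℕ} (hq : Odd q)
    (Φ : Pt A B → Pt A B)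
    (hΦ : ∀ x y h, ∃ h', Φ (.some x y h) = .some (x ^ q) (y ^ q) h')
    {h : Pt A B → Pt A B} (H : IsGerm A B h) :
    IsGerm A B (h ∘ Φ) ∧ gdeg A B (h ∘ Φ) = q * gdeg A B h := by
  have hq0 : 0 < q := hq.pos
  rcases H with H | ⟨r, s, H⟩
  · have hZ : IsZ A B (h ∘ Φ) := by
      have H' := compFrob_eventually_pow hq0 H
      filter_upwards [H'] with c hc y hy
      obtain ⟨h', e⟩ := hΦ c y hy
      rw [Function.comp_apply, e]
      exact hc _ h'
    exact ⟨Or.inl hZ, by rw [hZ.gdeg_eq, H.gdeg_eq, mul_zero]⟩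
  · have hR : IsRat A B (h ∘ Φ) (compFrobSubst q r)
        (compFrobSubst q s * cubicR A B ^ ((q - 1) / 2)) := by
      have H' := compFrob_eventually_pow hq0 H
      have Hr := compFrob_eventually_pow hq0 (eventually_regAt r)
      have Hs := compFrob_eventually_pow hq0 (eventually_regAt s)
      filter_upwards [H', Hr, Hs] with c hc hr hs y hy
      obtain ⟨h', e⟩ := hΦ c y hy
      obtain ⟨h'', e'⟩ := hc _ h'
      rw [Function.comp_apply, e, e']
      obtain ⟨-, er⟩ := compFrob_regAt_ev hr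
      obtain ⟨rs, es⟩ := compFrob_regAt_ev hs
      have hy2 : y ^ 2 = c ^ 3 + A * c + B := (sw_equation_iff c y).1 hy.1
      have hyq : y ^ q = (c ^ 3 + A * c + B) ^ ((q - 1) / 2) * y := by
        obtain ⟨m, rfl⟩ := hq
        have : (2 * m + 1 - 1) / 2 = m := by omega
        rw [this, ← hy2, ← pow_mul, pow_succ]
      refine some_congr h'' er.symm ?_
      rw [ev_mul rs ((regAt_cubicR c).pow _), ev_pow (regAt_cubicR c), ev_cubicR, es, hyq]
      ring
    exact ⟨Or.inr ⟨_, _, hR⟩, by rw [hR.gdeg_eq, H.gdeg_eq, compFrob_rdeg hq0]⟩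

end Fermat.Agent.Lib.Hasse
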