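import Mathlib
import Fermat.Agent.Lib.Hasse.Defs

set_option autoImplicit false

namespace Fermat.Agent.Lib.Hasse

open Polynomial

variable {K : Type*} [Field K]

/-- the set of `c` with `c ^ Q = c` is finite. -/
theorem fix_finite_pow_eq {Q : ℕ} (hQ : 1 < Q) : {c : K | c ^ Q = c}.Finite := by
  have hne : (X ^ Q - X : K[X]) ≠ 0 := FiniteField.X_pow_card_sub_X_ne_zero K hQ
  refine ((X ^ Q - X : K[X]).rootSet_finite K).subset ?_
  intro c hc
  rw [Polynomial.mem_rootSet]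
  refine ⟨hne, ?_⟩
  have hc' : c ^ Q = c := hc
  simp [hc']

theorem fix_finite_cnt (A B : K) {Q : ℕ} (hQ : 1 < Q) (e : K) :
    Finite {c : K // c ^ Q = c ∧ (c ^ 3 + A * c + B) ^ ((Q - 1) / 2) = e} := by
  have : {c : K | c ^ Q = c ∧ (c ^ 3 + A * c + B) ^ ((Q - 1) / 2) = e}.Finite :=
    (fix_finite_pow_eq (K := K) hQ).subset fun c hc => hc.1
  exact this.to_subtype

/-- the affine solutions of `Φ (x,y) = (x, e y)`. -/
def FixT (A B : K) (Q : ℕ) (e : K) : Type _ :=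
  {xy : K × K // xy.2 ^ 2 = xy.1 ^ 3 + A * xy.1 + B ∧ xy.1 ^ Q = xy.1 ∧ xy.2 ^ Q = e * xy.2}

theorem fix_pow_eq {Q : ℕ} (hodd : Odd Q) (y : K) : y ^ Q = y * (y ^ 2) ^ ((Q - 1) / 2) := by
  obtain ⟨m, rfl⟩ := hodd
  have : (2 * m + 1 - 1) / 2 = m := by omega
  rw [this, ← pow_mul, pow_succ, mul_comm]

section core

variable [IsAlgClosed K]

/-- a chosen square root. -/
noncomputable def fixSqrt (a : K) : K := (IsAlgClosed.exists_pow_nat_eq a (n := 2) (by norm_num)).choose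

theorem fixSqrt_sq (a : K) : fixSqrt a ^ 2 = a :=
  (IsAlgClosed.exists_pow_nat_eq a (n := 2) (by norm_num)).choose_spec

/-- the parametrisation of `FixT`. -/
noncomputable def fixPar (A B : K) {Q : ℕ} (hodd : Odd Q) (h3 : 3 ≤ Q) (e : K) :
    ({c : K // c ^ Q = c ∧ (c ^ 3 + A * c + B) ^ ((Q - 1) / 2) = 0} ⊕
      ({c : K // c ^ Q = c ∧ (c ^ 3 + A * c + B) ^ ((Q - 1) / 2) = e} × Bool)) → FixT A B Q e
  | .inl c => ⟨(c.1, 0), by
      have hn : (Q - 1) / 2 ≠ 0 := by omega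
      have h0 : c.1 ^ 3 + A * c.1 + B = 0 := by
        have := c.2.2
        exact (pow_eq_zero_iff hn).1 this
      have hQ0 : Q ≠ 0 := by omega
      refine ⟨?_, c.2.1, ?_⟩
      · simp [h0]
      · simp [hQ0]⟩
  | .inr (c, b) => ⟨(c.1, if b then fixSqrt (c.1 ^ 3 + A * c.1 + B) else
        - fixSqrt (c.1 ^ 3 + A * c.1 + B)), by
      have hs := fixSqrt_sq (c.1 ^ 3 + A * c.1 + B)
      refine ⟨?_, c.2.1, ?_⟩
      · cases b <;> simp [hs]
      · rw [fix_pow_eq hodd]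
        have h2 : (if b then fixSqrt (c.1 ^ 3 + A * c.1 + B) else
          - fixSqrt (c.1 ^ 3 + A * c.1 + B)) ^ 2 = c.1 ^ 3 + A * c.1 + B := by
          cases b <;> simp [hs]
        simp only []
        rw [h2, c.2.2, mul_comm]⟩

theorem fixPar_bijective (h2 : (2 : K) ≠ 0) (A B : K) {Q : ℕ} (hodd : Odd Q) (h3 : 3 ≤ Q) {e : K}
    (he : e ≠ 0) : Function.Bijective (fixPar A B hodd h3 e) := by
  have hn : (Q - 1) / 2 ≠ 0 := by omega
  have hsq_ne : ∀ c : {c : K // c ^ Q = c ∧ (c ^ 3 + A * c + B) ^ ((Q - 1) / 2) = e},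
      fixSqrt (c.1 ^ 3 + A * c.1 + B) ≠ 0 := by
    intro c h0
    have hs := fixSqrt_sq (c.1 ^ 3 + A * c.1 + B)
    rw [h0] at hs
    have h1 : c.1 ^ 3 + A * c.1 + B = 0 := by rw [← hs]; simp
    have h4 := c.2.2
    rw [h1, zero_pow hn] at h4
    exact he h4.symm
  constructor
  · rintro (c | ⟨c, b⟩) (c' | ⟨c', b'⟩) h
    · have h1 := congrArg (fun t : FixT A B Q e => t.1.1) h
      simp only [fixPar] at h1
      exact congrArg Sum.inl (Subtype.ext h1)
    · exfalso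
      have h1 := congrArg (fun t : FixT A B Q e => t.1.2) h
      simp only [fixPar] at h1
      have := hsq_ne c'
      cases b' <;> simp_all
    · exfalso
      have h1 := congrArg (fun t : FixT A B Q e => t.1.2) h
      simp only [fixPar] at h1
      have := hsq_ne c
      cases b <;> simp_all
    · have h1 := congrArg (fun t : FixT A B Q e => t.1.1) h
      have h1' := congrArg (fun t : FixT A B Q e => t.1.2) h
      simp only [fixPar] at h1 h1'
      have hc : c = c' := Subtype.ext h1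
      subst hc
      have hne := hsq_ne c
      have hne2 : fixSqrt (c.1 ^ 3 + A * c.1 + B) ≠ - fixSqrt (c.1 ^ 3 + A * c.1 + B) := by
        intro hh
        have : 2 * fixSqrt (c.1 ^ 3 + A * c.1 + B) = 0 := by linear_combination hh
        rcases mul_eq_zero.1 this with h | h
        · exact h2 h
        · exact hne h
      cases b <;> cases b' <;> simp_all
  · rintro ⟨⟨c, y⟩, h1, h4, h5⟩
    simp only at h1 h4 h5
    by_cases hy : y = 0
    · subst hy
      have h0 : c ^ 3 + A * c + B = 0 := by rw [← h1]; simp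
      refine ⟨.inl ⟨c, h4, by rw [h0, zero_pow hn]⟩, ?_⟩
      simp [fixPar]
    · have hu : (c ^ 3 + A * c + B) ^ ((Q - 1) / 2) = e := by
        rw [fix_pow_eq hodd, h1, mul_comm] at h5
        exact mul_right_cancel₀ hy h5
      have hs := fixSqrt_sq (c ^ 3 + A * c + B)
      have hfac : (y - fixSqrt (c ^ 3 + A * c + B)) * (y + fixSqrt (c ^ 3 + A * c + B)) = 0 := by
        linear_combination h1 - hs
      rcases mul_eq_zero.1 hfac with h | h
      · refine ⟨.inr (⟨c, h4, hu⟩, true), ?_⟩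
        apply Subtype.ext
        simp only [fixPar, if_true]
        rw [Prod.mk.injEq]
        exact ⟨rfl, by linear_combination -h⟩
      · refine ⟨.inr (⟨c, h4, hu⟩, false), ?_⟩
        apply Subtype.ext
        simp only [fixPar]
        rw [Prod.mk.injEq]
        exact ⟨rfl, by simp only [Bool.false_eq_true, if_false]; linear_combination -h⟩

theorem fix_card_T (h2 : (2 : K) ≠ 0) (A B : K) {Q : ℕ} (hodd : Odd Q) (h3 : 3 ≤ Q) {e : K}
    (he : e ≠ 0) : Nat.card (FixT A B Q e) = cnt A B Q 0 + 2 * cnt A B Q e := by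
  have hQ : 1 < Q := by omega
  have := fix_finite_cnt A B hQ (0 : K)
  have := fix_finite_cnt A B hQ e
  rw [← Nat.card_congr (Equiv.ofBijective _ (fixPar_bijective h2 A B hodd h3 he)), Nat.card_sum,
    Nat.card_prod]
  simp [cnt, mul_comm]

theorem fix_finite_T (h2 : (2 : K) ≠ 0) (A B : K) {Q : ℕ} (hodd : Odd Q) (h3 : 3 ≤ Q) {e : K}
    (he : e ≠ 0) : Finite (FixT A B Q e) := by
  have hQ : 1 < Q := by omega
  have := fix_finite_cnt A B hQ (0 : K)
  have := fix_finite_cnt A B hQ e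
  exact Finite.of_equiv _ (Equiv.ofBijective _ (fixPar_bijective h2 A B hodd h3 he))

end core

theorem fix_equation_iff (A B x y : K) :
    (sw A B).Equation x y ↔ y ^ 2 = x ^ 3 + A * x + B := by
  rw [WeierstrassCurve.Affine.equation_iff]
  simp [sw]

theorem fix_nonsingular_iff {A B : K} (hΔ : 16 * (4 * A ^ 3 + 27 * B ^ 2) ≠ 0) (x y : K) :
    (sw A B).Nonsingular x y ↔ y ^ 2 = x ^ 3 + A * x + B := by
  have hD : (sw A B).Δ ≠ 0 := by
    have : (sw A B).Δ = -(16 * (4 * A ^ 3 + 27 * B ^ 2)) := by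
      simp only [sw, WeierstrassCurve.Δ, WeierstrassCurve.b₂, WeierstrassCurve.b₄,
        WeierstrassCurve.b₆, WeierstrassCurve.b₈]
      ring
    rw [this]
    exact neg_ne_zero.2 hΔ
  rw [← WeierstrassCurve.Affine.equation_iff_nonsingular_of_Δ_ne_zero hD, fix_equation_iff]

/-- general counting statement: `sg` is `id` (`e = 1`) or `neg` (`e = -1`). -/
theorem fix_card_general [DecidableEq K] [IsAlgClosed K] (h2 : (2 : K) ≠ 0) {A B : K}
    (hΔ : 16 * (4 * A ^ 3 + 27 * B ^ 2) ≠ 0) {Q : ℕ} (hodd : Odd Q) (h3 : 3 ≤ Q) {e : K}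
    (he : e ≠ 0) (Φ sg : Pt A B → Pt A B) (h0 : Φ 0 = 0) (hs0 : sg 0 = 0)
    (hΦ : ∀ x y h, ∃ h', Φ (.some x y h) = .some (x ^ Q) (y ^ Q) h')
    (hsg : ∀ x y h, ∃ h', sg (.some x y h) = .some x (e * y) h') :
    Nat.card {P // Φ P = sg P} = 1 + cnt A B Q 0 + 2 * cnt A B Q e := by
  have := fix_finite_T h2 A B hodd h3 he
  have key : Nat.card {P // Φ P = sg P} = Nat.card (Option (FixT A B Q e)) := by
    refine (Nat.card_congr (Equiv.ofBijective
      (fun t : Option (FixT A B Q e) => (match t with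
        | none => ⟨0, by rw [h0, hs0]⟩
        | some t => ⟨.some t.1.1 t.1.2 ((fix_nonsingular_iff hΔ _ _).2 t.2.1), by
            obtain ⟨h', e1⟩ := hΦ t.1.1 t.1.2 ((fix_nonsingular_iff hΔ _ _).2 t.2.1)
            obtain ⟨h'', e2⟩ := hsg t.1.1 t.1.2 ((fix_nonsingular_iff hΔ _ _).2 t.2.1)
            rw [e1, e2, WeierstrassCurve.Affine.Point.some.injEq]
            exact ⟨t.2.2.1, t.2.2.2⟩⟩ : {P // Φ P = sg P})) ⟨?_, ?_⟩)).symm
    · rintro (_ | t) (_ | t') h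
      · rfl
      · have := congrArg Subtype.val h
        simp at this
      · have := congrArg Subtype.val h
        simp at this
      · have := congrArg Subtype.val h
        simp only [WeierstrassCurve.Affine.Point.some.injEq] at this
        exact congrArg some (Subtype.ext (Prod.ext this.1 this.2))
    · rintro ⟨P, hP⟩
      cases P with
      | zero => exact ⟨none, rfl⟩
      | some x y h =>
        obtain ⟨h', e1⟩ := hΦ x y h
        obtain ⟨h'', e2⟩ := hsg x y h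
        rw [e1, e2, WeierstrassCurve.Affine.Point.some.injEq] at hP
        exact ⟨some ⟨(x, y), (fix_nonsingular_iff hΔ _ _).1 h, hP.1, hP.2⟩, rfl⟩
  rw [key, Finite.card_option, fix_card_T h2 A B hodd h3 he]
  ring

variable [DecidableEq K] [IsAlgClosed K] (ℓ : ℕ) [Fact ℓ.Prime] [CharP K ℓ]

omit [DecidableEq K] [IsAlgClosed K] in
theorem fix_two_ne_zero (hℓ : ℓ ≠ 2) : (2 : K) ≠ 0 := by
  intro h
  have h' : ((2 : ℕ) : K) = 0 := by exact_mod_cast h
  rw [CharP.cast_eq_zero_iff K ℓ] at h'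
  exact hℓ ((Nat.prime_dvd_prime_iff_eq (Fact.out : ℓ.Prime) Nat.prime_two).1 h')

omit [DecidableEq K] [IsAlgClosed K] [CharP K ℓ] in
theorem fix_odd_pow (hℓ : ℓ ≠ 2) {Q k : ℕ} (hk : 0 < k) (hQ : Q = ℓ ^ k) : Odd Q ∧ 3 ≤ Q := by
  have hp : ℓ.Prime := Fact.out
  have hodd : Odd ℓ := hp.odd_of_ne_two hℓ
  have h3 : 3 ≤ ℓ := by
    have := hp.two_le
    omega
  refine ⟨hQ ▸ hodd.pow, ?_⟩
  rw [hQ]
  calc 3 ≤ ℓ := h3
    _ = ℓ ^ 1 := (pow_one ℓ).symm
    _ ≤ ℓ ^ k := Nat.pow_le_pow_right (by omega) hk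

theorem card_fix (hℓ : ℓ ≠ 2) {A B : K} (hΔ : 16 * (4 * A ^ 3 + 27 * B ^ 2) ≠ 0) {Q k : ℕ} (hk : 0 < k) (hQ : Q = ℓ ^ k) (hA : A ^ Q = A)
    (hB : B ^ Q = B) (Φ : Pt A B → Pt A B) (h0 : Φ 0 = 0)
    (hΦ : ∀ x y h, ∃ h', Φ (.some x y h) = .some (x ^ Q) (y ^ Q) h') :
    Nat.card {P // Φ P = P} = 1 + cnt A B Q 0 + 2 * cnt A B Q 1 := by
  obtain ⟨hodd, h3⟩ := fix_odd_pow ℓ hℓ hk hQ
  exact fix_card_general (fix_two_ne_zero (K := K) ℓ hℓ) hΔ hodd h3 one_ne_zero Φ id h0 rfl hΦ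
    (fun x y h => ⟨by rwa [one_mul], by simp⟩)

theorem card_antifix (hℓ : ℓ ≠ 2) {A B : K} (hΔ : 16 * (4 * A ^ 3 + 27 * B ^ 2) ≠ 0) {Q k : ℕ} (hk : 0 < k) (hQ : Q = ℓ ^ k) (hA : A ^ Q = A)
    (hB : B ^ Q = B) (Φ : Pt A B → Pt A B) (h0 : Φ 0 = 0)
    (hΦ : ∀ x y h, ∃ h', Φ (.some x y h) = .some (x ^ Q) (y ^ Q) h') :
    Nat.card {P // Φ P = -P} = 1 + cnt A B Q 0 + 2 * cnt A B Q (-1) := by
  obtain ⟨hodd, h3⟩ := fix_odd_pow ℓ hℓ hk hQ
  have hneg : ∀ x y : K, (sw A B).negY x y = -1 * y := by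
    intro x y
    simp [WeierstrassCurve.Affine.negY, sw]
  exact fix_card_general (fix_two_ne_zero (K := K) ℓ hℓ) hΔ hodd h3 (neg_ne_zero.2 one_ne_zero) Φ
    (fun P => -P) h0 neg_zero hΦ
    (fun x y h => ⟨by
      have := (WeierstrassCurve.Affine.nonsingular_neg (W' := sw A B) x y).2 h
      rwa [hneg] at this, by
      rw [WeierstrassCurve.Affine.Point.neg_some, WeierstrassCurve.Affine.Point.some.injEq]
      exact ⟨rfl, hneg x y⟩⟩)

end Fermat.Agent.Lib.Hasse
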