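import Mathlib

/-!
# `#Fix(Fr²) = #Fix(Fr) · #{Fr P = -P}` when `id - Fr` is surjective (S52, block C)
-/

set_option autoImplicit false

namespace Fermat.Agent.Lib.Hasse

/-- abstract counting lemma: if `P ↦ P - Fr P` is onto then
`#{Fr² P = P} = #{Fr P = P} * #{Fr P = -P}` (with `Nat.card`, so also true for infinite sets). -/
theorem card_fix_sq {G : Type*} [AddCommGroup G] (Fr : G →+ G)
    (hsurj : Function.Surjective fun P : G => P - Fr P) :
    Nat.card {P : G // Fr (Fr P) = P} =
      Nat.card {P : G // Fr P = P} * Nat.card {P : G // Fr P = -P} := by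
  -- the three subgroups
  let SA : AddSubgroup G :=
    { carrier := {P | Fr (Fr P) = P}
      zero_mem' := by simp
      add_mem' := fun {a b} ha hb => by
        simp only [Set.mem_ofPred_eq] at ha hb ⊢
        rw [map_add, map_add, ha, hb]
      neg_mem' := fun {a} ha => by
        simp only [Set.mem_ofPred_eq] at ha ⊢
        rw [map_neg, map_neg, ha] }
  let SC : AddSubgroup G :=
    { carrier := {P | Fr P = -P}
      zero_mem' := by simp
      add_mem' := fun {a b} ha hb => by
        simp only [Set.mem_ofPred_eq] at ha hb ⊢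
        rw [map_add, ha, hb, neg_add]
      neg_mem' := fun {a} ha => by
        simp only [Set.mem_ofPred_eq] at ha ⊢
        rw [map_neg, ha] }
  have memA : ∀ P : G, P ∈ SA ↔ Fr (Fr P) = P := fun _ => Iff.rfl
  have memC : ∀ P : G, P ∈ SC ↔ Fr P = -P := fun _ => Iff.rfl
  let f : SA →+ SC :=
    { toFun := fun P => ⟨(P : G) - Fr P, by
        rw [memC, map_sub, (memA _).1 P.2]; abel⟩
      map_zero' := by ext; simp
      map_add' := fun a b => by
        ext
        simp only [AddSubgroup.coe_add, map_add]
        abel }
  have hf : Function.Surjective f := by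
    rintro ⟨R, hR⟩
    obtain ⟨P, hP⟩ := hsurj R
    simp only at hP
    have hPA : P ∈ SA := by
      rw [memA]
      have h1 : Fr R = -R := (memC R).1 hR
      rw [← hP, map_sub] at h1
      have h2 : Fr (Fr P) = Fr P + (P - Fr P) := by
        have := h1
        rw [neg_sub, sub_eq_sub_iff_add_eq_add] at this
        -- Fr P + Fr P = Fr P ... solve by group arithmetic
        have h3 : Fr (Fr P) = Fr P + Fr P - (Fr P - P) - Fr P + (P - Fr P) + (Fr P - P) := by
          have h4 : Fr P - Fr (Fr P) = Fr P - P := by rw [h1]; abel
          have h5 : Fr (Fr P) = P := by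
            have := sub_right_injective h4
            exact this
          rw [h5]; abel
        rw [h3]; abel
      rw [h2]; abel
    exact ⟨⟨P, hPA⟩, Subtype.ext hP⟩
  have e1 : Nat.card SA = Nat.card (SA ⧸ f.ker) * Nat.card f.ker :=
    AddSubgroup.card_eq_card_quotient_mul_card_addSubgroup f.ker
  have e2 : Nat.card (SA ⧸ f.ker) = Nat.card SC :=
    Nat.card_congr (QuotientAddGroup.quotientKerEquivOfSurjective f hf).toEquiv
  have e3 : Nat.card f.ker = Nat.card {P : G // Fr P = P} := by
    refine Nat.card_congr
      { toFun := fun P => ⟨((P : SA) : G), by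
          have h := P.2
          rw [AddMonoidHom.mem_ker] at h
          have h' : (((P : SA) : G) - Fr ((P : SA) : G)) = 0 := congrArg Subtype.val h
          exact (sub_eq_zero.1 h').symm⟩
        invFun := fun P => ⟨⟨P.1, by rw [memA, P.2, P.2]⟩, by
          rw [AddMonoidHom.mem_ker]
          ext
          change P.1 - Fr P.1 = 0
          rw [P.2, sub_self]⟩
        left_inv := fun P => rfl
        right_inv := fun P => rfl }
  have e4 : Nat.card SA = Nat.card {P : G // Fr (Fr P) = P} := rfl
  have e5 : Nat.card SC = Nat.card {P : G // Fr P = -P} := rfl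
  rw [← e4, e1, e2, e3, e5, mul_comm]

end Fermat.Agent.Lib.Hasse
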