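import Mathlib
import Fermat.Agent.Lib.Hasse.Defs
import Fermat.Agent.Lib.Hasse.PrimVec

set_option autoImplicit false
set_option linter.unusedSectionVars false

namespace Fermat.Agent.Lib.Hasse

open Polynomial

variable {K : Type*} [Field K]

theorem manin_Q_facts {ℓ : ℕ} (hp : ℓ.Prime) (hℓ : ℓ ≠ 2) {Q k : ℕ} (hk : 0 < k) (hQ : Q = ℓ ^ k) :
    3 ≤ Q ∧ Odd Q := by
  have h3 : 3 ≤ ℓ := by
    have := hp.two_le
    omega
  constructor
  · calc 3 ≤ ℓ := h3
      _ = ℓ ^ 1 := (pow_one ℓ).symm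
      _ ≤ ℓ ^ k := Nat.pow_le_pow_right (by omega) hk
      _ = Q := hQ.symm
  · rw [hQ]
    exact (hp.odd_of_ne_two hℓ).pow

open Classical in
/-- the fixed points of `c ↦ c ^ Q`. -/
noncomputable def maninS (K : Type*) [Field K] (Q : ℕ) : Finset K := (X ^ Q - X : K[X]).roots.toFinset

theorem mem_maninS {Q : ℕ} (hQ : 1 < Q) {c : K} : c ∈ maninS K Q ↔ c ^ Q = c := by
  classical
  rw [maninS, Multiset.mem_toFinset, mem_roots (FiniteField.X_pow_card_sub_X_ne_zero K hQ)]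
  simp [sub_eq_zero]

variable [IsAlgClosed K] (ℓ : ℕ) [Fact ℓ.Prime] [CharP K ℓ]

theorem manin_separable {Q k : ℕ} (hk : 0 < k) (hQ : Q = ℓ ^ k) : (X ^ Q - X : K[X]).Separable :=
  galois_poly_separable ℓ Q (by rw [hQ]; exact dvd_pow_self ℓ hk.ne')

theorem card_maninS {Q k : ℕ} (hk : 0 < k) (hQ : Q = ℓ ^ k) (hQ1 : 1 < Q) :
    (maninS K Q).card = Q := by
  classical
  rw [maninS, Multiset.toFinset_card_of_nodup (nodup_roots (manin_separable ℓ hk hQ)),
    ← (IsAlgClosed.splits (X ^ Q - X : K[X])).natDegree_eq_card_roots,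
    FiniteField.X_pow_card_sub_X_natDegree_eq K hQ1]

theorem manin_monic {Q : ℕ} (hQ1 : 1 < Q) : (X ^ Q - X : K[X]).Monic := by
  apply monic_X_pow_sub
  rw [degree_X]
  exact_mod_cast hQ1

theorem prod_maninS {Q k : ℕ} (hk : 0 < k) (hQ : Q = ℓ ^ k) (hQ1 : 1 < Q) :
    ∏ c ∈ maninS K Q, (X - C c) = (X ^ Q - X : K[X]) := by
  classical
  have h := (IsAlgClosed.splits (X ^ Q - X : K[X])).eq_prod_roots_of_monic (manin_monic hQ1)
  rw [maninS, Finset.prod_eq_multiset_prod, Multiset.toFinset_val,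
    (nodup_roots (manin_separable ℓ hk hQ)).dedup]
  exact h.symm

theorem manin_cubic_pow {A B : K} {Q k : ℕ} (hQ : Q = ℓ ^ k) (hA : A ^ Q = A)
    (hB : B ^ Q = B) {c : K} (hc : c ^ Q = c) :
    (c ^ 3 + A * c + B) ^ Q = c ^ 3 + A * c + B := by
  subst hQ
  rw [add_pow_char_pow, add_pow_char_pow, mul_pow, ← pow_mul, mul_comm 3, pow_mul, hA, hB, hc]

theorem manin_trichotomy (hℓ : ℓ ≠ 2) {A B : K} {Q k : ℕ} (hk : 0 < k) (hQ : Q = ℓ ^ k)
    (hA : A ^ Q = A) (hB : B ^ Q = B) {c : K} (hc : c ^ Q = c) :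
    (c ^ 3 + A * c + B) ^ ((Q - 1) / 2) = 0 ∨ (c ^ 3 + A * c + B) ^ ((Q - 1) / 2) = 1 ∨
      (c ^ 3 + A * c + B) ^ ((Q - 1) / 2) = -1 := by
  obtain ⟨h3, hodd⟩ := manin_Q_facts (Fact.out : ℓ.Prime) hℓ hk hQ
  obtain ⟨m, hm⟩ := hodd
  have hm' : (Q - 1) / 2 = m := by omega
  have hm0 : m ≠ 0 := by omega
  rw [hm']
  set t := c ^ 3 + A * c + B with ht
  have h1 : t ^ Q = t := manin_cubic_pow ℓ hQ hA hB hc
  by_cases h0 : t = 0
  · left; rw [h0, zero_pow hm0]
  · right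
    have h2 : (t ^ m) ^ 2 = 1 := by
      have : t ^ (2 * m) * t = 1 * t := by rw [← pow_succ, ← hm, h1, one_mul]
      rw [← pow_mul, mul_comm m 2]
      exact mul_right_cancel₀ h0 this
    exact sq_eq_one_iff.mp h2


theorem manin_two_ne_zero (hℓ : ℓ ≠ 2) : (2 : K) ≠ 0 := by
  intro h
  have h2 : ((2 : ℕ) : K) = 0 := by exact_mod_cast h
  rw [CharP.cast_eq_zero_iff K ℓ 2] at h2
  have h3 := Nat.le_of_dvd (by norm_num) h2
  have h4 := (Fact.out : ℓ.Prime).two_le
  omega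

open Classical in
/-- the fixed points `c` with `f(c)^((Q-1)/2) = e`. -/
noncomputable def maninSe (A B : K) (Q : ℕ) (e : K) : Finset K :=
  (maninS K Q).filter fun c => (c ^ 3 + A * c + B) ^ ((Q - 1) / 2) = e

theorem mem_maninSe {A B : K} {Q : ℕ} (hQ : 1 < Q) {e c : K} :
    c ∈ maninSe A B Q e ↔ c ^ Q = c ∧ (c ^ 3 + A * c + B) ^ ((Q - 1) / 2) = e := by
  classical
  rw [maninSe, Finset.mem_filter, mem_maninS hQ]

theorem cnt_eq_card {A B : K} {Q : ℕ} (hQ : 1 < Q) (e : K) :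
    cnt A B Q e = (maninSe A B Q e).card := by
  rw [cnt]
  exact Nat.subtype_card _ fun c => mem_maninSe hQ

/-- `∏ (X - c)` over the fixed points with `f(c)^((Q-1)/2) = e`. -/
noncomputable def maninG (A B : K) (Q : ℕ) (e : K) : K[X] := ∏ c ∈ maninSe A B Q e, (X - C c)

theorem maninG_monic (A B : K) (Q : ℕ) (e : K) : (maninG A B Q e).Monic :=
  monic_prod_of_monic _ _ fun c _ => monic_X_sub_C c

theorem natDegree_maninG {A B : K} {Q : ℕ} (hQ : 1 < Q) (e : K) :
    (maninG A B Q e).natDegree = cnt A B Q e := by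
  rw [maninG, natDegree_finsetProd_X_sub_C_eq_card, cnt_eq_card hQ]

theorem maninG_mul (hℓ : ℓ ≠ 2) {A B : K} {Q k : ℕ} (hk : 0 < k) (hQ : Q = ℓ ^ k)
    (hA : A ^ Q = A) (hB : B ^ Q = B) :
    maninG A B Q 0 * maninG A B Q 1 * maninG A B Q (-1) = X ^ Q - X := by
  classical
  obtain ⟨h3, -⟩ := manin_Q_facts (Fact.out : ℓ.Prime) hℓ hk hQ
  have hQ1 : 1 < Q := by omega
  have h2 := manin_two_ne_zero (K := K) ℓ hℓ
  have h01 : (0 : K) ≠ 1 := zero_ne_one
  have h0m : (0 : K) ≠ -1 := by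
    intro h
    exact one_ne_zero (neg_eq_zero.mp h.symm)
  have h1m : (1 : K) ≠ -1 := by
    intro h
    apply h2
    linear_combination h
  have hmaps : ∀ c ∈ maninS K Q,
      (c ^ 3 + A * c + B) ^ ((Q - 1) / 2) ∈ ({0, 1, -1} : Finset K) := by
    intro c hc
    have := manin_trichotomy ℓ hℓ hk hQ hA hB ((mem_maninS hQ1).mp hc)
    simpa using this
  have h := Finset.prod_fiberwise_of_maps_to hmaps (fun c => (X - C c : K[X]))
  rw [prod_maninS ℓ hk hQ hQ1, Finset.prod_insert (by simp [h01, h0m]),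
    Finset.prod_insert (by simp [h1m]), Finset.prod_singleton] at h
  rw [← h, mul_assoc]
  rfl

theorem cnt_add (hℓ : ℓ ≠ 2) {A B : K} {Q k : ℕ} (hk : 0 < k) (hQ : Q = ℓ ^ k) (hA : A ^ Q = A)
    (hB : B ^ Q = B) : cnt A B Q 0 + cnt A B Q 1 + cnt A B Q (-1) = Q := by
  obtain ⟨h3, -⟩ := manin_Q_facts (Fact.out : ℓ.Prime) hℓ hk hQ
  have hQ1 : 1 < Q := by omega
  have h := congrArg natDegree (maninG_mul ℓ hℓ hk hQ hA hB)
  rw [FiniteField.X_pow_card_sub_X_natDegree_eq K hQ1,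
    ((maninG_monic A B Q 0).mul (maninG_monic A B Q 1)).natDegree_mul (maninG_monic A B Q (-1)),
    (maninG_monic A B Q 0).natDegree_mul (maninG_monic A B Q 1),
    natDegree_maninG hQ1, natDegree_maninG hQ1, natDegree_maninG hQ1] at h
  exact h

theorem manin_prod_dvd {s : Finset K} {p : K[X]} (h : ∀ c ∈ s, p.eval c = 0) :
    ∏ c ∈ s, (X - C c) ∣ p := by
  apply Finset.prod_dvd_of_coprime
  · intro a _ b _ hab
    exact isCoprime_X_sub_C_of_isUnit_sub (sub_ne_zero.mpr hab).isUnit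
  · intro c hc
    exact dvd_iff_isRoot.mpr (h c hc)

theorem manin_isCoprime_of_eval {p : K[X]} {c : K} (h : p.eval c ≠ 0) :
    IsCoprime p (X - C c) := by
  apply IsCoprime.symm
  rw [(irreducible_X_sub_C c).coprime_iff_not_dvd, dvd_iff_isRoot]
  exact h

theorem eval_cubic (A B c : K) : (cubic A B).eval c = c ^ 3 + A * c + B := by
  simp [cubic]

theorem manin_disc {A B c : K} (h1 : c ^ 3 + A * c + B = 0) (h2 : 3 * c ^ 2 + A = 0) :
    4 * A ^ 3 + 27 * B ^ 2 = 0 := by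
  have hA : A = -3 * c ^ 2 := by linear_combination h2
  have hB : B = 2 * c ^ 3 := by rw [hA] at h1; linear_combination h1
  rw [hA, hB]; ring

theorem manin_cubic_pow_poly {A B : K} {Q k : ℕ} (hQ : Q = ℓ ^ k) (hA : A ^ Q = A)
    (hB : B ^ Q = B) : cubic A B ^ Q = X ^ (3 * Q) + C A * X ^ Q + C B := by
  subst hQ
  rw [cubic, add_pow_char_pow, add_pow_char_pow, mul_pow, ← pow_mul, ← C_pow, ← C_pow, hA, hB]

theorem manin_natDegree_N {A B : K} {Q k m : ℕ} (hQ : Q = ℓ ^ k) (hA : A ^ Q = A)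
    (hB : B ^ Q = B) (hm : Q = 2 * m + 1) (hm1 : 1 ≤ m) :
    (cubic A B * (cubic A B ^ m + 1) ^ 2 - (X ^ Q + X) * (X ^ Q - X) ^ 2).natDegree
      = 2 * Q + 1 := by
  have h1 : cubic A B * (cubic A B ^ m + 1) ^ 2 - (X ^ Q + X) * (X ^ Q - X) ^ 2 =
      X ^ (2 * Q + 1) + (2 * (X ^ 3 + C A * X + C B : K[X]) ^ (m + 1) + X ^ (Q + 2) + C A * X ^ Q
        + C B + (X ^ 3 + C A * X + C B) - X ^ 3) := by
    have h2 := manin_cubic_pow_poly ℓ hQ hA hB
    have h3 : cubic A B * (cubic A B ^ m) ^ 2 = cubic A B ^ Q := by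
      rw [hm]; ring
    have h4 : (X ^ 3 + C A * X + C B : K[X]) = cubic A B := rfl
    rw [h4]
    have e1 : (X : K[X]) ^ (3 * Q) = (X ^ Q) ^ 3 := by rw [← pow_mul, mul_comm]
    have e2 : (X : K[X]) ^ (2 * Q + 1) = (X ^ Q) ^ 2 * X := by
      rw [← pow_mul, mul_comm Q 2, pow_succ]
    have e3 : (X : K[X]) ^ (Q + 2) = X ^ Q * X ^ 2 := pow_add _ _ _
    rw [e1] at h2
    rw [e2, e3, pow_succ (cubic A B) m]
    linear_combination h3 + h2
  have : natDegree (2 * (X ^ 3 + C A * X + C B : K[X]) ^ (m + 1) + X ^ (Q + 2) + C A * X ^ Q + C B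
      + (X ^ 3 + C A * X + C B) - X ^ 3) ≤ 2 * Q := by
    compute_degree
    all_goals omega
  rw [h1, natDegree_add_eq_left_of_natDegree_lt, natDegree_X_pow]
  rw [natDegree_X_pow]
  omega

theorem rdeg_manin (hℓ : ℓ ≠ 2) {A B : K} (hΔ : 16 * (4 * A ^ 3 + 27 * B ^ 2) ≠ 0)
    {Q k : ℕ} (hk : 0 < k) (hQ : Q = ℓ ^ k) (hA : A ^ Q = A) (hB : B ^ Q = B) :
    rdeg (((1 : RatFunc K) + cubicR A B ^ ((Q - 1) / 2)) ^ 2
        * cubicR A B / (RatFunc.X - RatFunc.X ^ Q) ^ 2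
        - RatFunc.X - RatFunc.X ^ Q)
      = 1 + cnt A B Q 0 + 2 * cnt A B Q 1 := by
  obtain ⟨h3, hodd⟩ := manin_Q_facts (Fact.out : ℓ.Prime) hℓ hk hQ
  have hQ1 : 1 < Q := by omega
  obtain ⟨m, hm⟩ := hodd
  have hm' : (Q - 1) / 2 = m := by omega
  have hm1 : 1 ≤ m := by omega
  have h2 := manin_two_ne_zero (K := K) ℓ hℓ
  have hdisc : 4 * A ^ 3 + 27 * B ^ 2 ≠ 0 := fun h => hΔ (by rw [h, mul_zero])
  set f := cubic A B with hf
  set g0 := maninG A B Q 0 with hg0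
  set g1 := maninG A B Q 1 with hg1
  set gm := maninG A B Q (-1) with hgm
  have F1 : g0 * g1 * gm = X ^ Q - X := maninG_mul ℓ hℓ hk hQ hA hB
  -- membership facts
  have hS : ∀ e c, c ∈ maninSe A B Q e → (f.eval c) ^ m = e := by
    intro e c hc
    rw [hf, eval_cubic, ← hm']
    exact ((mem_maninSe hQ1).mp hc).2
  obtain ⟨w, hw⟩ : gm ∣ f ^ m + 1 := by
    apply manin_prod_dvd
    intro c hc
    rw [eval_add, eval_pow, eval_one, hS _ c hc]
    ring
  obtain ⟨f1, hf1⟩ : g0 ∣ f := by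
    apply manin_prod_dvd
    intro c hc
    exact pow_eq_zero_iff (by omega : m ≠ 0) |>.mp (hS _ c hc)
  have hg0root : ∀ c ∈ maninSe A B Q 0, g0.eval c = 0 := by
    intro c hc
    rw [hg0, maninG, eval_prod]
    exact Finset.prod_eq_zero hc (by simp)
  -- non-vanishing
  have hw0 : ∀ c, (f.eval c) ^ m + 1 ≠ 0 → w.eval c ≠ 0 := by
    intro c hc h0
    apply hc
    have := congrArg (eval c) hw
    rw [eval_add, eval_pow, eval_one, eval_mul, h0, mul_zero] at this
    exact this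
  have hco : IsCoprime (f1 * w ^ 2) (g0 * g1 ^ 2) := by
    apply IsCoprime.mul_right
    · apply IsCoprime.prod_right
      intro c hc
      apply manin_isCoprime_of_eval
      rw [eval_mul, eval_pow]
      refine mul_ne_zero ?_ (pow_ne_zero 2 (hw0 c (by rw [hS _ c hc]; simp)))
      intro h0
      have hfc : f.eval c = 0 := pow_eq_zero_iff (by omega : m ≠ 0) |>.mp (hS _ c hc)
      have hder := congrArg (fun p => (derivative p).eval c) hf1
      simp only [derivative_mul, eval_add, eval_mul, h0, hg0root c hc, mul_zero, zero_mul,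
        add_zero] at hder
      have hder' : (derivative f).eval c = 3 * c ^ 2 + A := by
        rw [hf, cubic]
        simp
        left; norm_num
      rw [hder'] at hder
      rw [hf, eval_cubic] at hfc
      exact hdisc (manin_disc hfc hder)
    · apply IsCoprime.pow_right
      apply IsCoprime.prod_right
      intro c hc
      apply manin_isCoprime_of_eval
      rw [eval_mul, eval_pow]
      refine mul_ne_zero ?_ (pow_ne_zero 2 (hw0 c (by
        rw [hS _ c hc]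
        intro h; apply h2; linear_combination h)))
      intro h0
      have hfc : f.eval c = 0 := by rw [hf1, eval_mul, h0, mul_zero]
      have := hS _ c hc
      rw [hfc, zero_pow (by omega)] at this
      exact zero_ne_one this
  set n := f1 * w ^ 2 - (X + X ^ Q) * (g0 * g1 ^ 2) with hn
  set md := g0 * g1 ^ 2 with hmd
  have hcop : IsCoprime n md := by
    have : n = f1 * w ^ 2 + md * (-(X + X ^ Q)) := by rw [hn]; ring
    rw [this]
    exact IsCoprime.add_mul_left_left hco _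
  have hg0m : g0.Monic := maninG_monic _ _ _ _
  have hg1m : g1.Monic := maninG_monic _ _ _ _
  have hgmm : gm.Monic := maninG_monic _ _ _ _
  have hmdm : md.Monic := hg0m.mul (hg1m.pow 2)
  have hmd0 : md ≠ 0 := hmdm.ne_zero
  have hdegmd : md.natDegree = cnt A B Q 0 + 2 * cnt A B Q 1 := by
    rw [hmd, hg0m.natDegree_mul (hg1m.pow 2), hg1m.natDegree_pow, hg0, hg1,
      natDegree_maninG hQ1, natDegree_maninG hQ1]
  -- the numerator
  have hN : f * (f ^ m + 1) ^ 2 - (X ^ Q + X) * (X ^ Q - X) ^ 2 = n * (g0 * gm ^ 2) := by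
    rw [hn]
    linear_combination (f ^ m + 1) ^ 2 * hf1 + (g0 * f1) * (f ^ m + 1 + gm * w) * hw
      + (X ^ Q + X) * (X ^ Q - X + g0 * g1 * gm) * F1
  have hdegN := manin_natDegree_N ℓ hQ hA hB hm hm1
  rw [← hf, hN] at hdegN
  have hn0 : n ≠ 0 := by
    rintro h
    rw [h, zero_mul, natDegree_zero] at hdegN
    omega
  have hdegn : n.natDegree = cnt A B Q 0 + 2 * cnt A B Q 1 + 1 := by
    have hmon : (g0 * gm ^ 2).Monic := hg0m.mul (hgmm.pow 2)
    rw [natDegree_mul hn0 hmon.ne_zero, hg0m.natDegree_mul (hgmm.pow 2), hgmm.natDegree_pow,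
      hg0, hgm, natDegree_maninG hQ1, natDegree_maninG hQ1] at hdegN
    have := cnt_add ℓ hℓ hk hQ hA hB
    omega
  -- the rational function
  have hR : ((1 : RatFunc K) + cubicR A B ^ ((Q - 1) / 2)) ^ 2
        * cubicR A B / (RatFunc.X - RatFunc.X ^ Q) ^ 2 - RatFunc.X - RatFunc.X ^ Q
      = algebraMap K[X] (RatFunc K) n / algebraMap K[X] (RatFunc K) md := by
    have hinj := IsFractionRing.injective K[X] (RatFunc K)
    have ha : algebraMap K[X] (RatFunc K) g0 ≠ 0 :=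
      (map_ne_zero_iff _ hinj).mpr hg0m.ne_zero
    have hb : algebraMap K[X] (RatFunc K) g1 ≠ 0 :=
      (map_ne_zero_iff _ hinj).mpr hg1m.ne_zero
    have hc : algebraMap K[X] (RatFunc K) gm ≠ 0 :=
      (map_ne_zero_iff _ hinj).mpr hgmm.ne_zero
    have e1 : cubicR A B = algebraMap K[X] (RatFunc K) g0 * algebraMap K[X] (RatFunc K) f1 := by
      rw [cubicR, ← hf, hf1, map_mul]
    have e2 : (1 : RatFunc K) + cubicR A B ^ m =
        algebraMap K[X] (RatFunc K) gm * algebraMap K[X] (RatFunc K) w := by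
      rw [← map_mul, ← hw, cubicR, ← hf, map_add, map_pow, map_one, add_comm]
    have e3 : (RatFunc.X : RatFunc K) - RatFunc.X ^ Q =
        -(algebraMap K[X] (RatFunc K) g0 * algebraMap K[X] (RatFunc K) g1 *
          algebraMap K[X] (RatFunc K) gm) := by
      rw [← map_mul, ← map_mul, F1, map_sub, map_pow, RatFunc.algebraMap_X]
      ring
    rw [hm', e2, e3, e1, hn, hmd]
    simp only [map_sub, map_mul, map_pow, map_add, RatFunc.algebraMap_X]
    field_simp
    ring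
  rw [hR, rdeg_div hmd0 hcop, hdegn, hdegmd]
  omega

end Fermat.Agent.Lib.Hasse
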