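import Mathlib
import Fermat.Agent.Lib.Hasse.Defs
import Fermat.Agent.Lib.Hasse.Germ
import Fermat.Agent.Lib.Hasse.Quad
import Fermat.Agent.Lib.Hasse.Manin
import Fermat.Agent.Lib.Hasse.Fix
import Fermat.Agent.Lib.Hasse.FixSq
import Fermat.Agent.Lib.Hasse.CompFrob

set_option autoImplicit false
set_option linter.unusedSectionVars false
set_option linter.unusedSimpArgs false

namespace Fermat.Agent.Lib.Hasse

open Polynomial WeierstrassCurve.Affine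

variable {K : Type*} [Field K]

section Frob1

variable [DecidableEq K] [IsAlgClosed K] [NeZero (2 : K)] {A B : K}

theorem isRat_frob {Q : ℕ} (hQ : Odd Q) (Φ : Pt A B → Pt A B)
    (hΦ : ∀ x y h, ∃ h', Φ (.some x y h) = .some (x ^ Q) (y ^ Q) h') :
    IsRat A B Φ (RatFunc.X ^ Q) (cubicR A B ^ ((Q - 1) / 2)) := by
  refine Filter.Eventually.of_forall fun c y hy => ?_
  obtain ⟨h', e⟩ := hΦ c y hy
  rw [e]
  obtain ⟨m, rfl⟩ := hQ
  have hm : (2 * m + 1 - 1) / 2 = m := by omega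
  refine some_congr h' ?_ ?_
  · rw [ev_pow (regAt_X c), ev_X]
  · rw [hm, ev_pow (regAt_cubicR c), ev_cubicR, ← (sw_equation_iff c y).mp hy.1]
    ring

end Frob1

/-! ### assembly -/

section C8

variable [DecidableEq K] [IsAlgClosed K] (ℓ : ℕ) [Fact ℓ.Prime] [CharP K ℓ]

theorem rdeg_X_pow (n : ℕ) : rdeg ((RatFunc.X : RatFunc K) ^ n) = n := by
  have h := rdeg_div (K := K) (n := X ^ n) (m := 1) one_ne_zero isCoprime_one_right
  simpa using h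

/-- `gdeg (id - Φ) = #Fix Φ` for a Frobenius-like map. -/
theorem gdeg_id_sub_frob [NeZero (2 : K)] (hℓ : ℓ ≠ 2) {A B : K}
    (hΔ : 16 * (4 * A ^ 3 + 27 * B ^ 2) ≠ 0)
    {Q k : ℕ} (hk : 0 < k) (hQ : Q = ℓ ^ k) (hA : A ^ Q = A) (hB : B ^ Q = B)
    (Φ : Pt A B → Pt A B) (h0 : Φ 0 = 0)
    (hΦ : ∀ x y h, ∃ h', Φ (.some x y h) = .some (x ^ Q) (y ^ Q) h') :
    gdeg A B (id - Φ) = Nat.card {P // Φ P = P} := by
  have hodd : Odd Q := by
    rw [hQ]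
    exact ((Fact.out : ℓ.Prime).odd_of_ne_two hℓ).pow
  have hQ1 : 1 < Q := by
    rw [hQ]
    exact Nat.one_lt_pow hk.ne' (Fact.out : ℓ.Prime).one_lt
  have H1 := isRat_id (A := A) (B := B)
  have H2 := (isRat_frob hodd Φ hΦ).neg
  have hne : (RatFunc.X : RatFunc K) ≠ RatFunc.X ^ Q := by
    intro h
    have h1 := congrArg rdeg h
    rw [rdeg_X_pow] at h1
    have h2 := rdeg_X_pow (K := K) 1
    rw [pow_one] at h2
    omega
  obtain ⟨s₃, H3⟩ := H1.add_of_ne H2 hne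
  rw [sub_eq_add_neg, H3.gdeg_eq, sub_neg_eq_add, rdeg_manin ℓ hℓ hΔ hk hQ hA hB,
    card_fix ℓ hℓ hΔ hk hQ hA hB Φ h0 hΦ]

theorem frob_quadratic (hℓ : ℓ ≠ 2) {A B : K} (hΔ : 16 * (4 * A ^ 3 + 27 * B ^ 2) ≠ 0)
    {q k : ℕ} (hk : 0 < k) (hq : q = ℓ ^ k) (hA : A ^ q = A) (hB : B ^ q = B)
    (Fr : Pt A B →+ Pt A B)
    (hFr : ∀ x y h, ∃ h', Fr (.some x y h) = .some (x ^ q) (y ^ q) h') (P : Pt A B) :
    Fr (Fr P) - ((q : ℤ) + 1 - Nat.card {P // Fr P = P}) • Fr P + (q : ℤ) • P = 0 := by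
  haveI : NeZero (2 : K) := ⟨by
    intro h
    apply hΔ
    have : (16 : K) = 2 ^ 4 := by norm_num
    rw [this, h]; ring⟩
  have hodd : Odd q := by
    rw [hq]
    exact ((Fact.out : ℓ.Prime).odd_of_ne_two hℓ).pow
  -- the second iterate
  have hq2 : q ^ 2 = ℓ ^ (2 * k) := by rw [hq, ← pow_mul, mul_comm]
  have hA2 : A ^ (q ^ 2) = A := by rw [sq, pow_mul, hA, hA]
  have hB2 : B ^ (q ^ 2) = B := by rw [sq, pow_mul, hB, hB]
  have hFr2 : ∀ x y h, ∃ h', (⇑Fr ∘ ⇑Fr) (.some x y h) = .some (x ^ (q ^ 2)) (y ^ (q ^ 2)) h' := by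
    intro x y h
    obtain ⟨h1, e1⟩ := hFr x y h
    obtain ⟨h2, e2⟩ := hFr _ _ h1
    rw [Function.comp_apply, e1, e2]
    exact some_congr h2 (by rw [sq, pow_mul]) (by rw [sq, pow_mul])
  -- germs
  have Gid : IsGerm A B (id : Pt A B → Pt A B) := Or.inr ⟨_, _, isRat_id⟩
  have RF := isRat_frob hodd (⇑Fr) hFr
  have GF : IsGerm A B (⇑Fr) := Or.inr ⟨_, _, RF⟩
  have RF2 := isRat_frob hodd.pow (⇑Fr ∘ ⇑Fr) hFr2
  have GF2 : IsGerm A B (⇑Fr ∘ ⇑Fr) := Or.inr ⟨_, _, RF2⟩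
  -- degrees
  have d1 : gdeg A B (id : Pt A B → Pt A B) = 1 := by
    rw [isRat_id.gdeg_eq]
    simpa using rdeg_X_pow (K := K) 1
  have dF : gdeg A B (⇑Fr) = q := by rw [RF.gdeg_eq, rdeg_X_pow]
  have dF2 : gdeg A B (⇑Fr ∘ ⇑Fr) = q ^ 2 := by rw [RF2.gdeg_eq, rdeg_X_pow]
  set N := Nat.card {P // Fr P = P} with hN
  have dm1 : gdeg A B (id - ⇑Fr) = N :=
    gdeg_id_sub_frob ℓ hℓ hΔ hk hq hA hB (⇑Fr) (map_zero Fr) hFr
  have dm2 : gdeg A B (id - ⇑Fr ∘ ⇑Fr) = Nat.card {P // Fr (Fr P) = P} :=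
    gdeg_id_sub_frob ℓ hℓ hΔ (by omega : 0 < 2 * k) hq2 hA2 hB2 (⇑Fr ∘ ⇑Fr)
      (by simp) hFr2
  -- `N > 0`
  have hfix := card_fix ℓ hℓ hΔ hk hq hA hB (⇑Fr) (map_zero Fr) hFr
  have hanti := card_antifix ℓ hℓ hΔ hk hq hA hB (⇑Fr) (map_zero Fr) hFr
  have hcnt := cnt_add ℓ hℓ hk hq hA hB
  have hNpos : 0 < N := by rw [hN, hfix]; omega
  -- surjectivity of `id - Fr`
  have hsurj : Function.Surjective (AddMonoidHom.id (Pt A B) - Fr) := by
    apply surjective_of_gdeg_pos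
    · exact Gid.sub GF
    · have : (⇑(AddMonoidHom.id (Pt A B) - Fr) : Pt A B → Pt A B) = id - ⇑Fr := by
        ext P; simp
      rw [this, dm1]; exact hNpos
  have hsq := card_fix_sq Fr (fun Q => by
    obtain ⟨P, hP⟩ := hsurj Q
    exact ⟨P, by simpa using hP⟩)
  -- parallelogram laws
  have p1 := gdeg_parallelogram hΔ Gid GF
  have p2 := gdeg_parallelogram hΔ Gid GF2
  have hcomp := (Gid.add GF).comp_frob hodd (⇑Fr) hFr
  have hcompeq : (id + ⇑Fr) ∘ ⇑Fr = ⇑Fr + ⇑Fr ∘ ⇑Fr := by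
    ext P; simp
  rw [hcompeq] at hcomp
  -- the quadratic form
  have hquad := quad_three (germs A B) (fun h => (gdeg A B h : ℤ))
    (fun x hx y hy => by exact_mod_cast gdeg_parallelogram hΔ hx hy)
    (x := id) (y := ⇑Fr) (z := ⇑Fr ∘ ⇑Fr) Gid GF GF2 (q : ℤ) (-((q : ℤ) + 1 - N)) 1
  set ψ : Pt A B →+ Pt A B := Fr.comp Fr - ((q : ℤ) + 1 - N) • Fr + (q : ℤ) • AddMonoidHom.id _
    with hψ
  have hψfun : (⇑ψ : Pt A B → Pt A B)
      = (q : ℤ) • id + (-((q : ℤ) + 1 - N)) • ⇑Fr + (1 : ℤ) • (⇑Fr ∘ ⇑Fr) := by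
    ext P
    simp only [hψ, AddMonoidHom.add_apply, AddMonoidHom.sub_apply, AddMonoidHom.comp_apply,
      AddMonoidHom.smul_apply, AddMonoidHom.id_apply, Pi.add_apply, Pi.smul_apply, id_eq,
      Function.comp_apply, one_smul, neg_smul, Pi.neg_apply]
    abel
  have hψgerm : IsGerm A B ψ := by
    rw [hψfun]
    exact (germs A B).add_mem ((germs A B).add_mem ((germs A B).zsmul_mem Gid _)
      ((germs A B).zsmul_mem GF _)) ((germs A B).zsmul_mem GF2 _)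
  have hψdeg : gdeg A B ψ = 0 := by
    have h1 : (gdeg A B ψ : ℤ) = 0 := by
      rw [hψfun]
      rw [hquad, d1, dF, dF2, hcomp.2]
      have e1 : (gdeg A B (id + ⇑Fr) : ℤ) = 2 + 2 * q - N := by
        have : (gdeg A B (id + ⇑Fr) : ℤ) + (gdeg A B (id - ⇑Fr) : ℤ)
            = 2 * (gdeg A B (id : Pt A B → Pt A B) : ℤ) + 2 * (gdeg A B (⇑Fr) : ℤ) := by
          exact_mod_cast p1
        rw [dm1, d1, dF] at this
        linarith
      have e2 : (gdeg A B (id + ⇑Fr ∘ ⇑Fr) : ℤ) = 2 + 2 * (q : ℤ) ^ 2 - N * (2 + 2 * q - N) := by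
        have : (gdeg A B (id + ⇑Fr ∘ ⇑Fr) : ℤ) + (gdeg A B (id - ⇑Fr ∘ ⇑Fr) : ℤ)
            = 2 * (gdeg A B (id : Pt A B → Pt A B) : ℤ) + 2 * (gdeg A B (⇑Fr ∘ ⇑Fr) : ℤ) := by
          exact_mod_cast p2
        rw [dm2, hsq, d1, dF2, hanti] at this
        have h3 : ((1 + cnt A B q 0 + 2 * cnt A B q (-1) : ℕ) : ℤ) = 2 + 2 * q - N := by
          rw [hN, hfix]
          push_cast
          have : (cnt A B q 0 : ℤ) + cnt A B q 1 + cnt A B q (-1) = q := by exact_mod_cast hcnt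
          linarith
        push_cast at this h3 ⊢
        rw [h3] at this
        linarith
      rw [e2]
      push_cast
      rw [e1]
      ring
    exact_mod_cast h1
  have hzero := eq_zero_of_gdeg_eq_zero ψ hψgerm hψdeg
  have := congrArg (fun f : Pt A B →+ Pt A B => f P) hzero
  simpa [hψ] using this

end C8

end Fermat.Agent.Lib.Hasse
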