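import Mathlib
import Fermat.Agent.Lib.Hasse.Frob

set_option autoImplicit false

namespace Fermat.Agent.Lib.Hasse

open Polynomial WeierstrassCurve WeierstrassCurve.Affine

/-- elements fixed by the Frobenius come from the prime field. -/
theorem glue_mem_range {K : Type*} [Field K] (ℓ : ℕ) [Fact ℓ.Prime] [Algebra (ZMod ℓ) K] {x : K}
    (hx : x ^ ℓ = x) : ∃ a : ZMod ℓ, algebraMap (ZMod ℓ) K a = x := by
  have : CharP K ℓ := charP_of_injective_algebraMap (algebraMap (ZMod ℓ) K).injective ℓ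
  have h1 : x ∈ (⊥ : Subfield K) := (Subfield.mem_bot_iff_pow_eq_self K ℓ).mpr hx
  have h2 : (⊥ : Subfield K) ≤ (algebraMap (ZMod ℓ) K).fieldRange := bot_le
  exact h2 h1

theorem glue_map_sw {F K : Type*} [Field F] [Field K] (φ : F →+* K) (A B : F) :
    (sw A B).map φ = sw (φ A) (φ B) := by
  ext <;> simp [sw]

theorem glue_nonsingular {F K : Type*} [Field F] [Field K] (φ : F →+* K) (A B x y : F) :
    (sw (φ A) (φ B)).Nonsingular (φ x) (φ y) ↔ (sw A B).Nonsingular x y := by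
  rw [← glue_map_sw]
  exact map_nonsingular (W := sw A B) φ.injective x y

/-- The points fixed by the Frobenius are the rational points. -/
theorem glue_card_fixed {K : Type*} [Field K] [DecidableEq K] (ℓ : ℕ) [Fact ℓ.Prime]
    [Algebra (ZMod ℓ) K] (A B : ZMod ℓ)
    (Fr : Pt (algebraMap (ZMod ℓ) K A) (algebraMap (ZMod ℓ) K B) →
      Pt (algebraMap (ZMod ℓ) K A) (algebraMap (ZMod ℓ) K B)) (hFr0 : Fr 0 = 0)
    (hFr : ∀ x y h, ∃ h', Fr (.some x y h) = .some (x ^ ℓ) (y ^ ℓ) h') :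
    Nat.card {P // Fr P = P} = Nat.card (Pt A B) := by
  symm
  let φ := algebraMap (ZMod ℓ) K
  let f : Pt A B → {P // Fr P = P} := fun P =>
    match P with
    | 0 => ⟨0, hFr0⟩
    | .some x y h => ⟨.some (φ x) (φ y) ((glue_nonsingular φ A B x y).mpr h), by
        obtain ⟨h', e⟩ := hFr (φ x) (φ y) ((glue_nonsingular φ A B x y).mpr h)
        rw [e]
        simp only [← map_pow, ZMod.pow_card]⟩
  refine Nat.card_congr (Equiv.ofBijective f ⟨?_, ?_⟩)
  · rintro (_ | ⟨x, y, h⟩) (_ | ⟨x', y', h'⟩) e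
    · rfl
    · exact absurd (congrArg Subtype.val e) (by simp [f])
    · exact absurd (congrArg Subtype.val e) (by simp [f])
    · have e' := congrArg Subtype.val e
      simp only [f, Point.some.injEq] at e'
      obtain ⟨e1, e2⟩ := e'
      have e1' := φ.injective e1
      have e2' := φ.injective e2
      subst e1' e2'
      rfl
  · rintro ⟨(_ | ⟨X, Y, H⟩), hP⟩
    · exact ⟨0, rfl⟩
    · obtain ⟨h', e⟩ := hFr X Y H
      rw [e] at hP
      simp only [Point.some.injEq] at hP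
      obtain ⟨x, rfl⟩ := glue_mem_range ℓ hP.1
      obtain ⟨y, rfl⟩ := glue_mem_range ℓ hP.2
      exact ⟨.some x y ((glue_nonsingular φ A B x y).mp H), rfl⟩

/-- the core statement, for a curve which is propositionally equal to a short one. -/
theorem glue_core {K : Type*} [Field K] [DecidableEq K] [IsAlgClosed K] (ℓ : ℕ) [Fact ℓ.Prime]
    [Algebra (ZMod ℓ) K] (hℓ : ℓ ≠ 2) (A B : ZMod ℓ) (hΔ : 16 * (4 * A ^ 3 + 27 * B ^ 2) ≠ 0)
    (W' : WeierstrassCurve.Affine K)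
    (hW : W' = sw (algebraMap (ZMod ℓ) K A) (algebraMap (ZMod ℓ) K B))
    (Fr : W'.Point →+ W'.Point)
    (hFr : ∀ x y h, ∃ h', Fr (.some x y h) = .some (x ^ ℓ) (y ^ ℓ) h') (P : W'.Point) :
    Fr (Fr P) - ((ℓ : ℤ) + 1 - Nat.card (Pt A B)) • Fr P + (ℓ : ℤ) • P = 0 := by
  subst hW
  have : CharP K ℓ := charP_of_injective_algebraMap (algebraMap (ZMod ℓ) K).injective ℓ
  rw [← glue_card_fixed ℓ A B Fr (map_zero Fr) hFr]
  refine frob_quadratic ℓ hℓ ?_ (k := 1) one_pos (pow_one ℓ).symm ?_ ?_ Fr hFr P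
  · have := (map_ne_zero (algebraMap (ZMod ℓ) K)).mpr hΔ
    rwa [map_mul, map_add, map_mul, map_mul, map_pow, map_pow, map_ofNat, map_ofNat,
      map_ofNat] at this
  · rw [← map_pow, ZMod.pow_card]
  · rw [← map_pow, ZMod.pow_card]

/-- **Theorem C** for short Weierstrass curves over `ZMod ℓ`. -/
theorem frobenius_quadratic_zmod (ℓ : ℕ) [Fact ℓ.Prime] (hℓ : ℓ ≠ 2)
    (W : WeierstrassCurve.Affine (ZMod ℓ)) (h₁ : W.a₁ = 0) (h₂ : W.a₂ = 0) (h₃ : W.a₃ = 0)
    (hΔ : W.Δ ≠ 0) [DecidableEq (AlgebraicClosure (ZMod ℓ))]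
    (P : (W⁄(AlgebraicClosure (ZMod ℓ))).Point) :
    Point.map (W' := W) (FiniteField.frobeniusAlgHom (ZMod ℓ) (AlgebraicClosure (ZMod ℓ)))
        (Point.map (W' := W) (FiniteField.frobeniusAlgHom (ZMod ℓ) (AlgebraicClosure (ZMod ℓ))) P)
      - ((ℓ : ℤ) + 1 - Nat.card W.Point) •
        Point.map (W' := W) (FiniteField.frobeniusAlgHom (ZMod ℓ) (AlgebraicClosure (ZMod ℓ))) P
      + (ℓ : ℤ) • P = 0 := by
  obtain ⟨a₁, a₂, a₃, a₄, a₆⟩ := W
  simp only at h₁ h₂ h₃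
  subst h₁ h₂ h₃
  refine glue_core ℓ hℓ a₄ a₆ ?_ _ ?_ _ ?_ P
  · intro h
    apply hΔ
    simp only [WeierstrassCurve.Δ, WeierstrassCurve.b₂, WeierstrassCurve.b₄, WeierstrassCurve.b₆,
      WeierstrassCurve.b₈]
    linear_combination (-1 : ZMod ℓ) * h
  · ext <;> simp [sw]
  · intro x y h
    have key : ∀ (n : ℕ) (_ : n = ℓ) (H : _), ∃ h', (Point.some (W' :=
        (⟨0, 0, 0, a₄, a₆⟩ : WeierstrassCurve.Affine (ZMod ℓ))⁄(AlgebraicClosure (ZMod ℓ)))
        (x ^ n) (y ^ n) H) = .some (x ^ ℓ) (y ^ ℓ) h' := by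
      intro n hn H
      subst hn
      exact ⟨H, rfl⟩
    rw [Point.map_some]
    exact key (Fintype.card (ZMod ℓ)) (ZMod.card ℓ) _

end Fermat.Agent.Lib.Hasse
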